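import Mathlib
import Fermat.Prelude.Def_ModularCurve_ArithmeticGalois

set_option autoImplicit false
set_option linter.dupNamespace false

/-!
# S19 (FG), row FIN.Level, generic part: the Galois action has finite level

Let `L / ℚ` be an algebraic field extension, `F₀ ⊆ ℚ((q))` an intermediate field and
`F = laurentBaseChange L F₀ = L · F₀ ⊆ L((q))` with the coefficientwise action of `Gal(L/ℚ)`
(`ModularCurve.arithmeticGalois`).  Assume that nonzero functions have finitely many zeros
(`HasPrincipalDivisors L F`).  Then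

* every element of `F` (`openFix_smul_elt`),
* every place of `F / L` (`openFix_smul_place`),
* every divisor (`openFix_smul_divisor`),
* every class of `Pic0 L F` (`exists_fd_fixing`)

is fixed by `Gal(L/E)` for a finite extension `E / ℚ` inside `L` (depending on the object).

Vocabulary: `OpenFix P` := `∃ E : IntermediateField ℚ L, FiniteDimensional ℚ E ∧
∀ σ : L ≃ₐ[ℚ] L, (∀ e ∈ E, σ e = e) → P σ`.
-/

noncomputable section

open IntermediateField HahnSeries AlgebraicCurve ModularCurve
open scoped Pointwise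

namespace Fermat.Agent.S19.GalLevel

variable {L : Type*} [Field L] [Algebra ℚ L]

/-- `P σ` holds for every `σ ∈ Gal(L/ℚ)` fixing a suitable finite extension `E / ℚ` pointwise. -/
def OpenFix (P : (L ≃ₐ[ℚ] L) → Prop) : Prop :=
  ∃ E : IntermediateField ℚ L, FiniteDimensional ℚ E ∧
    ∀ σ : L ≃ₐ[ℚ] L, (∀ e ∈ E, σ e = e) → P σ

theorem OpenFix.mono {P Q : (L ≃ₐ[ℚ] L) → Prop} (h : OpenFix P) (hPQ : ∀ σ, P σ → Q σ) :
    OpenFix Q := by
  obtain ⟨E, hE, hP⟩ := h
  exact ⟨E, hE, fun σ hσ => hPQ σ (hP σ hσ)⟩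

theorem OpenFix.and {P Q : (L ≃ₐ[ℚ] L) → Prop} (hP : OpenFix P) (hQ : OpenFix Q) :
    OpenFix (fun σ => P σ ∧ Q σ) := by
  obtain ⟨E₁, hE₁, h₁⟩ := hP
  obtain ⟨E₂, hE₂, h₂⟩ := hQ
  haveI := hE₁
  haveI := hE₂
  exact ⟨E₁ ⊔ E₂, IntermediateField.finiteDimensional_sup E₁ E₂, fun σ hσ =>
    ⟨h₁ σ fun e he => hσ e ((le_sup_left : E₁ ≤ E₁ ⊔ E₂) he),
      h₂ σ fun e he => hσ e ((le_sup_right : E₂ ≤ E₁ ⊔ E₂) he)⟩⟩

theorem openFix_all {P : (L ≃ₐ[ℚ] L) → Prop} (h : ∀ σ, P σ) : OpenFix P :=
  ⟨⊥, inferInstance, fun σ _ => h σ⟩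

/-- Finite conjunctions. -/
theorem openFix_finset {ι : Type*} (s : Finset ι) (P : ι → (L ≃ₐ[ℚ] L) → Prop)
    (h : ∀ i ∈ s, OpenFix (P i)) : OpenFix (fun σ => ∀ i ∈ s, P i σ) := by
  classical
  induction s using Finset.induction_on with
  | empty => exact openFix_all (by simp)
  | insert a s ha ih =>
    have h1 := h a (Finset.mem_insert_self a s)
    have h2 := ih (fun i hi => h i (Finset.mem_insert_of_mem hi))
    refine (h1.and h2).mono (fun σ hσ i hi => ?_)
    rcases Finset.mem_insert.mp hi with rfl | hi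
    · exact hσ.1
    · exact hσ.2 i hi

/-- Finite conjunctions over a finite type. -/
theorem openFix_forall {ι : Type*} [Finite ι] (P : ι → (L ≃ₐ[ℚ] L) → Prop)
    (h : ∀ i, OpenFix (P i)) : OpenFix (fun σ => ∀ i, P i σ) := by
  classical
  haveI := Fintype.ofFinite ι
  exact (openFix_finset Finset.univ P fun i _ => h i).mono fun σ hσ i => hσ i (Finset.mem_univ i)

/-- Every element of `L` is fixed by `Gal(L/ℚ(a))`. -/
theorem openFix_apply_eq [Algebra.IsAlgebraic ℚ L] (a : L) :
    OpenFix (fun σ : L ≃ₐ[ℚ] L => σ a = a) :=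
  ⟨ℚ⟮a⟯, IntermediateField.adjoin.finiteDimensional
      (Algebra.IsAlgebraic.isAlgebraic a).isIntegral,
    fun σ hσ => hσ a (IntermediateField.mem_adjoin_simple_self ℚ a)⟩

variable (F₀ : IntermediateField ℚ (LaurentSeries ℚ))

/-- Every series of `L · F₀` has its coefficients in a finite extension of `ℚ`. -/
theorem openFix_coeffMap [Algebra.IsAlgebraic ℚ L] {x : LaurentSeries L}
    (hx : x ∈ laurentBaseChange L F₀) :
    OpenFix (fun σ : L ≃ₐ[ℚ] L => coeffMap (σ : L →+* L) x = x) := by
  rw [mem_laurentBaseChange_iff] at hx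
  induction hx using Subfield.closure_induction with
  | mem y hy =>
      rcases hy with ⟨a, rfl⟩ | ⟨z, hz, rfl⟩
      · refine (openFix_apply_eq a).mono fun σ hσ => ?_
        rw [coeffMap_algebraMap]
        exact congrArg _ hσ
      · exact openFix_all fun σ => coeffMap_coeffEmb σ z
  | one => exact openFix_all fun _ => map_one _
  | add x y _ _ hx hy => exact (hx.and hy).mono fun σ h => by rw [map_add, h.1, h.2]
  | neg x _ hx => exact hx.mono fun σ h => by rw [map_neg, h]
  | inv x _ hx => exact hx.mono fun σ h => by rw [map_inv₀, h]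
  | mul x y _ _ hx hy => exact (hx.and hy).mono fun σ h => by rw [map_mul, h.1, h.2]

/-- Every function is fixed by an open subgroup. -/
theorem openFix_smul_elt [Algebra.IsAlgebraic ℚ L] (x : laurentBaseChange L F₀) :
    OpenFix (fun σ : L ≃ₐ[ℚ] L => arithmeticGalois F₀ σ • x = x) :=
  (openFix_coeffMap F₀ x.2).mono fun σ h => Subtype.ext h

variable [HasPrincipalDivisors L (laurentBaseChange L F₀)]

/-- **Every place is fixed by an open subgroup.** -/
theorem openFix_smul_place [Algebra.IsAlgebraic ℚ L] (v : Place L (laurentBaseChange L F₀)) :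
    OpenFix (fun σ : L ≃ₐ[ℚ] L => arithmeticGalois F₀ σ • v = v) := by
  classical
  obtain ⟨π, hπ⟩ := IsDiscreteValuationRing.exists_irreducible v.toValuationSubring
  have hord : v.ord (π : laurentBaseChange L F₀) = 1 := v.ord_coe_irreducible hπ
  have hπ0 : (π : laurentBaseChange L F₀) ≠ 0 := by
    intro h0
    rw [h0, Place.ord_zero] at hord
    exact zero_ne_one hord
  obtain ⟨D, hD, -⟩ :=
    HasPrincipalDivisors.exists_divisor (K := L) (π : laurentBaseChange L F₀) hπ0
  -- separating functions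
  have hsep : ∀ w : Place L (laurentBaseChange L F₀), w ≠ v →
      ∃ h : laurentBaseChange L F₀,
        ¬ (h ∈ v.toValuationSubring ↔ h ∈ w.toValuationSubring) := by
    intro w hw
    by_contra hcon
    have hcon' : ∀ h : laurentBaseChange L F₀,
        (h ∈ v.toValuationSubring ↔ h ∈ w.toValuationSubring) := by
      intro h
      by_contra hh
      exact hcon ⟨h, hh⟩
    exact hw (Place.ext (SetLike.ext fun h => (hcon' h).symm))
  choose! h hh using hsep
  have key : OpenFix (fun σ : L ≃ₐ[ℚ] L =>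
      arithmeticGalois F₀ σ • (π : laurentBaseChange L F₀) = π ∧
        ∀ w ∈ D.support, arithmeticGalois F₀ σ • h w = h w) :=
    (openFix_smul_elt F₀ _).and
      (openFix_finset D.support (fun w σ => arithmeticGalois F₀ σ • h w = h w)
        fun w _ => openFix_smul_elt F₀ (h w))
  refine key.mono fun σ hσ => ?_
  obtain ⟨h1, h2⟩ := hσ
  by_contra hne
  have h3 : (arithmeticGalois F₀ σ • v).ord (π : laurentBaseChange L F₀) = 1 := by
    have h4 := SemilinearAut.ord_smul (arithmeticGalois F₀ σ) v (π : laurentBaseChange L F₀)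
    rw [h1] at h4
    rw [h4, hord]
  have hmem : arithmeticGalois F₀ σ • v ∈ D.support := by
    rw [Finsupp.mem_support_iff, hD, h3]
    exact one_ne_zero
  have hfix := h2 _ hmem
  apply hh _ hne
  constructor
  · intro hv
    have h5 := ValuationSubring.smul_mem_pointwise_smul (arithmeticGalois F₀ σ)
      (h (arithmeticGalois F₀ σ • v)) v.toValuationSubring hv
    rw [hfix] at h5
    exact h5
  · intro hw
    have hw' : h (arithmeticGalois F₀ σ • v) ∈
        (arithmeticGalois F₀ σ • v.toValuationSubring : ValuationSubring _) := hw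
    rw [ValuationSubring.mem_pointwise_smul_iff_inv_smul_mem] at hw'
    have h6 : (arithmeticGalois F₀ σ)⁻¹ • h (arithmeticGalois F₀ σ • v)
        = h (arithmeticGalois F₀ σ • v) := by
      rw [inv_smul_eq_iff, hfix]
    rwa [h6] at hw'

/-- Every divisor is fixed by an open subgroup. -/
theorem openFix_smul_divisor [Algebra.IsAlgebraic ℚ L]
    (D : Divisor L (laurentBaseChange L F₀)) :
    OpenFix (fun σ : L ≃ₐ[ℚ] L => arithmeticGalois F₀ σ • D = D) := by
  classical
  refine (openFix_finset D.support (fun v σ => arithmeticGalois F₀ σ • v = v)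
    fun v _ => openFix_smul_place F₀ v).mono fun σ hσ => ?_
  rw [SemilinearAut.divisor_smul_def]
  have h1 := Finsupp.mapDomain_congr (v := D) (f := (arithmeticGalois F₀ σ • ·)) (g := id)
    (fun v hv => hσ v hv)
  rw [h1, Finsupp.mapDomain_id]

/-- Every class of `Pic0` is fixed by an open subgroup. -/
theorem openFix_smul_pic0 [Algebra.IsAlgebraic ℚ L] (x : Pic0 L (laurentBaseChange L F₀)) :
    OpenFix (fun σ : L ≃ₐ[ℚ] L => σ • x = x) := by
  obtain ⟨D, rfl⟩ := Pic0.mk_surjective x
  refine (openFix_smul_divisor F₀ (D : Divisor L (laurentBaseChange L F₀))).mono fun σ hσ => ?_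
  rw [galois_smul_pic0_def, SemilinearAut.pic0_smul_mk]
  exact congrArg Pic0.mk (Subtype.ext (by rw [SemilinearAut.coe_degZeroSMulHom, hσ]))

/-- **Finite level of the Galois action on `Pic0`**, unfolded. -/
theorem exists_fd_fixing [Algebra.IsAlgebraic ℚ L] (x : Pic0 L (laurentBaseChange L F₀)) :
    ∃ E : IntermediateField ℚ L, FiniteDimensional ℚ E ∧
      ∀ σ : L ≃ₐ[ℚ] L, (∀ e ∈ E, σ e = e) → σ • x = x :=
  openFix_smul_pic0 F₀ x

/-- Finite level, uniformly on a finite set of classes. -/
theorem exists_fd_fixing_of_finite [Algebra.IsAlgebraic ℚ L]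
    (S : Set (Pic0 L (laurentBaseChange L F₀))) (hS : S.Finite) :
    ∃ E : IntermediateField ℚ L, FiniteDimensional ℚ E ∧
      ∀ σ : L ≃ₐ[ℚ] L, (∀ e ∈ E, σ e = e) → ∀ x ∈ S, σ • x = x := by
  classical
  have h := openFix_finset hS.toFinset (fun (x : Pic0 L (laurentBaseChange L F₀)) σ => σ • x = x)
    fun x _ => openFix_smul_pic0 F₀ x
  obtain ⟨E, hE, hσ⟩ := h
  exact ⟨E, hE, fun σ h1 x hx => hσ σ h1 x (hS.mem_toFinset.mpr hx)⟩

end Fermat.Agent.S19.GalLevel

end
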