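import Fermat.Agent.S30.KummerKernel
import Fermat.Agent.S22.GammaFG

set_option autoImplicit false
set_option linter.dupNamespace false

/-!
# S19 pre-work (FIN): the torsion of `J₀(N)(ℚ̄)` is finite

`JZero N = Pic0 ℚ̄ (modularFunctionFieldBar N)`.  For `m > 0` the `m`-torsion is finite:
a class `x` with `m • x = 0` has a representative `D` with `m • D = div (a / b)`, `a, b ∈ A0 N`;
the landed Kummer theory of S30 (`KummerKernel.exists_isKummerRoot`) gives a holomorphic `m`-th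
root `H` of `θ a * θ b ^ (m - 1)` on `ℍ`, whose multipliers on `Γ₀(N)` are `m`-th roots of unity.
Two classes whose roots have the same multipliers on a finite generating set of `Γ₀(N)`
(`S22.GammaFG`) are equal (`KummerKernel.exists_pow_eq_of_mult_eq_one`).  Hence the torsion
injects into the finite set of functions `S → μ_m(ℂ)`.

* `exists_kdata`     : Kummer data of a torsion class;
* `eq_of_mult_eq`    : equal multipliers on `Γ₀(N)` ⇒ equal classes;
* `finite_torsion`   : `Finite (Submodule.torsionBy ℤ (JZero N) (m : ℤ))` for `0 < m`;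
* `finite_torsion_prime_pow` : the frozen-S19 shape `(ℓ : ℤ) ^ k`.
-/

noncomputable section

open scoped MatrixGroups
open AlgebraicCurve UpperHalfPlane ModularCurve CongruenceSubgroup
open Fermat.Agent.S24.HolH Fermat.Agent.S24.Theta Fermat.Agent.S24.Modular
open Fermat.Agent.S30.KummerChar

namespace Fermat.Agent.S19.TorsionFinite

variable {N : ℕ} {m : ℕ}

/-- `ord` of a natural power. -/
theorem ord_npow (v : Place Kbar (FN N)) (f : FN N) (n : ℕ) : v.ord (f ^ n) = n * v.ord f := by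
  have h := v.ord_zpow f (n : ℤ)
  rwa [zpow_natCast] at h

/-- The trivial Kummer root. -/
theorem isKummerRoot_one_one (ι : Kbar →+* ℂ) : IsKummerRoot ι m (1 : A0 N) 1 1 := by
  unfold IsKummerRoot
  simp

/-- Powers of Kummer roots. -/
theorem isKummerRoot_npow {ι : Kbar →+* ℂ} {a b : A0 N} {H : HolH}
    (h : IsKummerRoot ι m a b H) (n : ℕ) : IsKummerRoot ι m (a ^ n) (b ^ n) (H ^ n) := by
  induction n with
  | zero => simpa using isKummerRoot_one_one (N := N) (m := m) ι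
  | succ n ih =>
    rw [pow_succ, pow_succ, pow_succ]
    exact ih.mul h

/-- **Kummer data of a torsion class.** -/
theorem exists_kdata (ι : Kbar →+* ℂ) (hm : 0 < m) (x : JZero N) (hx : (m : ℤ) • x = 0) :
    ∃ (D : Divisor.degZero (K := Kbar) (F := FN N)) (a b : A0 N) (H : HolH),
      Pic0.mk D = x ∧ a ≠ 0 ∧ b ≠ 0 ∧
      (∀ v : Place Kbar (FN N),
        (m : ℤ) * (D : Divisor Kbar (FN N)) v = v.ord (a : FN N) - v.ord (b : FN N)) ∧
      IsKummerRoot ι m a b H := by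
  obtain ⟨D, rfl⟩ := Pic0.mk_surjective x
  have h1 : Pic0.mk ((m : ℤ) • D) = 0 := hx
  have h2 : ((m : ℤ) • D) ∈ (Divisor.principal (K := Kbar) (F := FN N)).addSubgroupOf
      (Divisor.degZero (K := Kbar) (F := FN N)) := (QuotientAddGroup.eq_zero_iff _).mp h1
  rw [AddSubgroup.mem_addSubgroupOf] at h2
  obtain ⟨f, hf0, hf⟩ := h2
  obtain ⟨a, b, hb, hab⟩ := exists_mul_eq f
  have hb' : b ≠ 0 := fun h => hb (by rw [h]; rfl)
  have haF : (a : FN N) ≠ 0 := by
    rw [← hab]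
    exact mul_ne_zero hf0 hb
  have ha : a ≠ 0 := fun h => haF (by rw [h]; rfl)
  have hdiv : ∀ v : Place Kbar (FN N),
      (m : ℤ) * (D : Divisor Kbar (FN N)) v = v.ord (a : FN N) - v.ord (b : FN N) := by
    intro v
    have h3 := hf v
    rw [AddSubgroup.coe_zsmul, Finsupp.smul_apply, smul_eq_mul] at h3
    rw [h3, ← hab, v.ord_mul hf0 hb]
    ring
  obtain ⟨H, hH⟩ := Fermat.Agent.S30.KummerKernel.exists_isKummerRoot (ι := ι) hm ha hb'
    (fun v => ⟨_, (hdiv v).symm⟩)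
  exact ⟨D, a, b, H, rfl, ha, hb', hdiv, hH⟩

/-- **Injectivity of the Kummer multipliers.**  Two torsion classes whose Kummer roots have the
same multipliers on `Γ₀(N)` are equal. -/
theorem eq_of_mult_eq [NeZero N] (ι : Kbar →+* ℂ) (hm : 0 < m) {x x' : JZero N}
    (hx' : (m : ℤ) • x' = 0)
    {D D' : Divisor.degZero (K := Kbar) (F := FN N)} {a b a' b' : A0 N} {H H' : HolH}
    (hD : Pic0.mk D = x) (hD' : Pic0.mk D' = x')
    (ha : a ≠ 0) (hb : b ≠ 0) (ha' : a' ≠ 0) (hb' : b' ≠ 0)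
    (hord : ∀ v : Place Kbar (FN N),
      (m : ℤ) * (D : Divisor Kbar (FN N)) v = v.ord (a : FN N) - v.ord (b : FN N))
    (hord' : ∀ v : Place Kbar (FN N),
      (m : ℤ) * (D' : Divisor Kbar (FN N)) v = v.ord (a' : FN N) - v.ord (b' : FN N))
    (hroot : IsKummerRoot ι m a b H) (hroot' : IsKummerRoot ι m a' b' H')
    (hmult : ∀ γ ∈ Gamma0 N, mult γ H = mult γ H') : x = x' := by
  have hH : H ≠ 0 := hroot.ne_zero hm ha hb
  have hH' : H' ≠ 0 := hroot'.ne_zero hm ha' hb'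
  have hmZ : (m : ℤ) ≠ 0 := by exact_mod_cast hm.ne'
  -- the combined pair `(a * a' ^ (m - 1), b * b' ^ (m - 1))`
  have hrootC : IsKummerRoot ι m (a * a' ^ (m - 1)) (b * b' ^ (m - 1)) (H * H' ^ (m - 1)) :=
    hroot.mul (isKummerRoot_npow hroot' (m - 1))
  have hB : b * b' ^ (m - 1) ≠ 0 := mul_ne_zero hb (pow_ne_zero _ hb')
  have hone : ∀ γ ∈ Gamma0 N, mult γ (H * H' ^ (m - 1)) = 1 := by
    intro γ hγ
    have e1 : IsEig γ H := hroot.isEig hm hγ
    have e2 : IsEig γ H' := hroot'.isEig hm hγ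
    rw [e1.mult_mul_fun (e2.pow_fun _) hH (pow_ne_zero _ hH'), e2.mult_pow_fun hH', hmult γ hγ,
      ← pow_succ', Nat.sub_add_cancel hm]
    exact hroot'.mult_pow hm ha' hb' hγ
  obtain ⟨y, hy⟩ := Fermat.Agent.S30.KummerKernel.exists_pow_eq_of_mult_eq_one hm hB hrootC hone
  -- nonvanishing in the field
  have haF : (a : FN N) ≠ 0 := fun h => ha (Subtype.ext h)
  have hbF : (b : FN N) ≠ 0 := fun h => hb (Subtype.ext h)
  have haF' : (a' : FN N) ≠ 0 := fun h => ha' (Subtype.ext h)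
  have hbF' : (b' : FN N) ≠ 0 := fun h => hb' (Subtype.ext h)
  have hy' : y ^ m = ((a : FN N) * (a' : FN N) ^ (m - 1)) / ((b : FN N) * (b' : FN N) ^ (m - 1)) := by
    rw [hy]
    rfl
  have hnum : (a : FN N) * (a' : FN N) ^ (m - 1) ≠ 0 := mul_ne_zero haF (pow_ne_zero _ haF')
  have hden : (b : FN N) * (b' : FN N) ^ (m - 1) ≠ 0 := mul_ne_zero hbF (pow_ne_zero _ hbF')
  have hy0 : y ≠ 0 := by
    rintro rfl
    rw [zero_pow hm.ne'] at hy'
    exact (div_ne_zero hnum hden) hy'.symm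
  -- the divisor of `y`
  have key : ∀ v : Place Kbar (FN N),
      v.ord y = (D : Divisor Kbar (FN N)) v + ((m - 1 : ℕ) : ℤ) * (D' : Divisor Kbar (FN N)) v := by
    intro v
    have h1 : (m : ℤ) * v.ord y = v.ord (y ^ m) := (ord_npow v y m).symm
    rw [hy', div_eq_mul_inv, v.ord_mul hnum (inv_ne_zero hden), v.ord_inv,
      v.ord_mul haF (pow_ne_zero _ haF'), v.ord_mul hbF (pow_ne_zero _ hbF'),
      ord_npow, ord_npow] at h1
    apply mul_left_cancel₀ hmZ
    rw [h1]
    linear_combination (-1 : ℤ) * hord v - ((m - 1 : ℕ) : ℤ) * hord' v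
  -- `D + (m - 1) • D'` is principal
  have hprin : (D + (m - 1) • D') ∈ (Divisor.principal (K := Kbar) (F := FN N)).addSubgroupOf
      (Divisor.degZero (K := Kbar) (F := FN N)) := by
    rw [AddSubgroup.mem_addSubgroupOf]
    refine ⟨y, hy0, fun v => ?_⟩
    rw [AddSubgroup.coe_add, AddSubgroup.coe_nsmul, Finsupp.add_apply,
      Finsupp.smul_apply, nsmul_eq_mul, key v]
  have hzero : Pic0.mk (D + (m - 1) • D') = 0 := (QuotientAddGroup.eq_zero_iff _).mpr hprin
  have hsum : x + (m - 1) • x' = 0 := by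
    rw [← hD, ← hD']
    exact hzero
  -- conclude with `m • x' = 0`
  have hm1 : ((m - 1 : ℕ) : ℤ) = (m : ℤ) - 1 := by
    rw [Nat.cast_sub hm, Nat.cast_one]
  have h5 : x + ((m : ℤ) - 1) • x' = 0 := by
    rw [← hm1, natCast_zsmul]
    exact hsum
  rw [sub_smul, one_smul, hx', zero_sub] at h5
  exact add_neg_eq_zero.mp h5

/-- **Finiteness of the torsion of `J₀(N)(ℚ̄)`.** -/
theorem finite_torsion (N : ℕ) [NeZero N] (m : ℕ) (hm : 0 < m) :
    Finite ↥(Submodule.torsionBy ℤ (JZero N) (m : ℤ)) := by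
  classical
  obtain ⟨S, hS, hind⟩ := Fermat.Agent.S22.GammaFG.gamma0_induction N
  have hx : ∀ x : ↥(Submodule.torsionBy ℤ (JZero N) (m : ℤ)), (m : ℤ) • (x : JZero N) = 0 :=
    fun x => (Submodule.mem_torsionBy_iff _ _).mp x.2
  choose D a b H hmk ha hb hord hroot using
    fun x : ↥(Submodule.torsionBy ℤ (JZero N) (m : ℤ)) =>
      exists_kdata iotaBar hm (x : JZero N) (hx x)
  let sig : ↥(Submodule.torsionBy ℤ (JZero N) (m : ℤ)) →
      (↥S → ↥(Polynomial.nthRootsFinset m (1 : ℂ))) := fun x s =>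
    ⟨mult (s : SL(2, ℤ)) (H x), (Polynomial.mem_nthRootsFinset hm 1).mpr
      ((hroot x).mult_pow hm (ha x) (hb x) (hS s s.2))⟩
  refine Finite.of_injective sig ?_
  intro x x' hsig
  apply Subtype.ext
  have hHx : H x ≠ 0 := (hroot x).ne_zero hm (ha x) (hb x)
  have hHx' : H x' ≠ 0 := (hroot x').ne_zero hm (ha x') (hb x')
  refine eq_of_mult_eq iotaBar hm (hx x') (hmk x) (hmk x') (ha x) (hb x) (ha x') (hb x')
    (hord x) (hord x') (hroot x) (hroot x') ?_
  refine hind (fun γ => mult γ (H x) = mult γ (H x')) ?_ ?_ ?_ ?_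
  · rw [mult_one hHx, mult_one hHx']
  · intro g hg
    have h1 := congrFun hsig ⟨g, hg⟩
    exact congrArg Subtype.val h1
  · intro g h hg hh pg ph
    rw [((hroot x).isEig hm hg).mult_mul ((hroot x).isEig hm hh) hHx,
      ((hroot x').isEig hm hg).mult_mul ((hroot x').isEig hm hh) hHx', pg, ph]
  · intro g hg pg
    have hgi : g⁻¹ ∈ Gamma0 N := Subgroup.inv_mem _ hg
    have h1 := ((hroot x).isEig hm hgi).mult_mul ((hroot x).isEig hm hg) hHx
    have h2 := ((hroot x').isEig hm hgi).mult_mul ((hroot x').isEig hm hg) hHx'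
    rw [inv_mul_cancel, mult_one hHx] at h1
    rw [inv_mul_cancel, mult_one hHx'] at h2
    have hne : mult g (H x') ≠ 0 := ((hroot x').isEig hm hg).mult_ne_zero hHx'
    apply mul_right_cancel₀ hne
    rw [← h2, ← pg, ← h1]

/-- The frozen-S19 shape: the `ℓ ^ k`-torsion of `J₀(N)(ℚ̄)` is finite. -/
theorem finite_torsion_prime_pow (N : ℕ) [NeZero N] (ℓ : ℕ) [Fact ℓ.Prime] (k : ℕ) :
    Finite ↥(Submodule.torsionBy ℤ (JZero N) ((ℓ : ℤ) ^ k)) := by
  have h := finite_torsion N (ℓ ^ k) (pow_pos (Fact.out : ℓ.Prime).pos k)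
  rwa [Nat.cast_pow] at h

end Fermat.Agent.S19.TorsionFinite

end
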