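/-
S19 / S32, route-independent consumer, GENERATOR FORMS (helper72), on top of helper235's
`Fermat.Agent.S19.HopfOrder.exists_hopf_of_order`.

`ℤ_(ℓ) = Zl ℓ = GaloisRep.ratLocalizedAt ℓ`, `Qb = AlgebraicClosure ℚ`, `Gal = Qb ≃ₐ[ℚ] Qb`.

A producer does not have to exhibit a finitely generated subalgebra closed under
`h ↦ ((x, y) ↦ h (x + y))`: it is enough to give finitely many integral equivariant functions
separating the points whose "comultiplications" are finite sums of products of elements of the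
algebra they generate.

* `exists_hopf_of_generators`           : a finite set `S` of functions integral in the ring
                                          `G → Qb` (no finiteness of `G`);
* `exists_hopf_of_generators_of_finite` : `G` finite, values integral;
* `exists_hopf_of_polynomial_law`       : `G` finite, a finite family `a i` with integral values and
                                          `a i (x + y) = P i (a x, a y)`, `P i` a polynomial over
                                          `ℤ_(ℓ)`;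
* `exists_hopf_of_lattice`              : `G` finite, a finitely generated `ℤ_(ℓ)`-module `L` of
                                          integral-valued equivariant functions, separating points,
                                          with `Δ L ⊆ L ⊗ L` (`L` need not be a ring);
* `frozenS19_of_generators`, `frozenS19_of_polynomial_law`, `frozenS19_of_lattice` : the conclusion
  of the frozen S19 verbatim, for `G = J₀(p)[ℓ^k]` (finite).
-/
import Mathlib
import Fermat.Agent.S19.HopfOrder.Frozen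

set_option autoImplicit false

noncomputable section

namespace Fermat.Agent.S19.HopfGen

open scoped TensorProduct
open GaloisRep ModularCurve
open Fermat.Agent.S19.HopfOrder

variable {ℓ : ℕ} {G : Type}

/-- The functions `(x, y) ↦ b x * c y` with `b, c` in a subalgebra `H`. -/
def prodSet (H : Subalgebra (Zl ℓ) (G → Qb)) : Set (G × G → Qb) :=
  {F : G × G → Qb | ∃ b ∈ H, ∃ c ∈ H, F = fun p => b p.1 * c p.2}

/-- The subalgebra of functions on `G × G` generated by the `(x, y) ↦ b x * c y`: it is the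
range of `mu2`. -/
def prodAlg (H : Subalgebra (Zl ℓ) (G → Qb)) : Subalgebra (Zl ℓ) (G × G → Qb) :=
  (mu2 H.val).range

theorem span_prodSet (H : Subalgebra (Zl ℓ) (G → Qb)) :
    Submodule.span (Zl ℓ) (prodSet H) = Subalgebra.toSubmodule (prodAlg H) := by
  apply le_antisymm
  · refine Submodule.span_le.mpr ?_
    rintro _ ⟨a, ha, b, hb, rfl⟩
    refine ⟨(⟨a, ha⟩ : H) ⊗ₜ[Zl ℓ] (⟨b, hb⟩ : H), ?_⟩
    funext p
    simp
  · rintro _ ⟨t, rfl⟩
    induction t using TensorProduct.induction_on with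
    | zero => simp
    | tmul a b =>
      refine Submodule.subset_span ⟨a.1, a.2, b.1, b.2, ?_⟩
      funext p
      simp
    | add s t hs ht =>
      have h : (mu2 H.val).toRingHom (s + t) = (mu2 H.val).toRingHom s + (mu2 H.val).toRingHom t :=
        map_add _ _ _
      rw [h]
      exact Submodule.add_mem _ hs ht

/-- `h ↦ ((x, y) ↦ h (x + y))` as an algebra map. -/
def addPull (ℓ : ℕ) (G : Type) [Add G] : (G → Qb) →ₐ[Zl ℓ] (G × G → Qb) :=
  pull ℓ (fun p : G × G => p.1 + p.2)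

theorem addPull_apply [Add G] (h : G → Qb) : addPull ℓ G h = fun p : G × G => h (p.1 + p.2) := rfl

theorem fst_mem_prodAlg (H : Subalgebra (Zl ℓ) (G → Qb)) {b : G → Qb} (hb : b ∈ H) :
    (fun p : G × G => b p.1) ∈ prodAlg H := by
  have h1 : (fun p : G × G => b p.1) ∈ Submodule.span (Zl ℓ) (prodSet H) := by
    refine Submodule.subset_span ⟨b, hb, 1, H.one_mem, ?_⟩
    funext p
    simp
  rw [span_prodSet] at h1
  exact h1

theorem snd_mem_prodAlg (H : Subalgebra (Zl ℓ) (G → Qb)) {c : G → Qb} (hc : c ∈ H) :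
    (fun p : G × G => c p.2) ∈ prodAlg H := by
  have h1 : (fun p : G × G => c p.2) ∈ Submodule.span (Zl ℓ) (prodSet H) := by
    refine Submodule.subset_span ⟨1, H.one_mem, c, hc, ?_⟩
    funext p
    simp
  rw [span_prodSet] at h1
  exact h1

/-- Equivariance passes from generators to the generated algebra. -/
theorem equivariant_adjoin (act : Gal → G → G) (S : Set (G → Qb))
    (heq : ∀ a ∈ S, ∀ (σ : Gal) (x : G), a (act σ x) = σ (a x)) :
    ∀ h ∈ Algebra.adjoin (Zl ℓ) S, ∀ (σ : Gal) (x : G), h (act σ x) = σ (h x) := by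
  intro h hh σ x
  induction hh using Algebra.adjoin_induction with
  | mem a ha => exact heq a ha σ x
  | algebraMap r =>
    change algebraMap (Zl ℓ) Qb r = σ (algebraMap (Zl ℓ) Qb r)
    rw [algebraMap_Zl_Qb, AlgEquiv.commutes]
  | add a b _ _ ha hb => simp [ha, hb]
  | mul a b _ _ ha hb => simp [ha, hb]

/-- **Generator form, general.**  No finiteness of `G`; the generators are integral in the ring
of functions. -/
theorem exists_hopf_of_generators (ℓ : ℕ) {G : Type} [AddCommGroup G] (act : Gal → G → G)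
    (S : Set (G → Qb)) (hfin : S.Finite)
    (hint : ∀ a ∈ S, IsIntegral (Zl ℓ) a)
    (heq : ∀ a ∈ S, ∀ (σ : Gal) (x : G), a (act σ x) = σ (a x))
    (hsep : ∀ x y : G, x ≠ y → ∃ a ∈ S, a x ≠ a y)
    (hΔ : ∀ a ∈ S, (fun p : G × G => a (p.1 + p.2)) ∈
      Submodule.span (Zl ℓ)
        {F : G × G → Qb | ∃ b ∈ Algebra.adjoin (Zl ℓ) S, ∃ c ∈ Algebra.adjoin (Zl ℓ) S,
          F = fun p => b p.1 * c p.2}) :
    ∃ (H' : Type) (_ : CommRing H') (_ : HopfAlgebra (ratLocalizedAt ℓ) H'),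
      Module.Finite (ratLocalizedAt ℓ) H' ∧ Module.Flat (ratLocalizedAt ℓ) H' ∧
      Coalgebra.IsCocomm (ratLocalizedAt ℓ) H' ∧
      ∃ e : WithConv (H' →ₐ[ratLocalizedAt ℓ] AlgebraicClosure ℚ) ≃ G,
        (∀ f g, e (f * g) = e f + e g) ∧
        ∀ (σ : AlgebraicClosure ℚ ≃ₐ[ℚ] AlgebraicClosure ℚ)
          (f g : WithConv (H' →ₐ[ratLocalizedAt ℓ] AlgebraicClosure ℚ)),
          (∀ h : H', g h = σ (f h)) → e g = act σ (e f) := by
  have hfg : (Subalgebra.toSubmodule (Algebra.adjoin (Zl ℓ) S)).FG := fg_adjoin_of_finite hfin hint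
  have hsepH : ∀ x y : G, x ≠ y → ∃ h ∈ Algebra.adjoin (Zl ℓ) S, h x ≠ h y := by
    intro x y hxy
    obtain ⟨a, ha, hne⟩ := hsep x y hxy
    exact ⟨a, Algebra.subset_adjoin ha, hne⟩
  have hle : Algebra.adjoin (Zl ℓ) S ≤ (prodAlg (Algebra.adjoin (Zl ℓ) S)).comap (addPull ℓ G) := by
    refine Algebra.adjoin_le ?_
    intro a ha
    have h1 := hΔ a ha
    change (fun p : G × G => a (p.1 + p.2)) ∈
      Submodule.span (Zl ℓ) (prodSet (Algebra.adjoin (Zl ℓ) S)) at h1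
    rw [span_prodSet] at h1
    exact h1
  have hΔH : ∀ h ∈ Algebra.adjoin (Zl ℓ) S, (fun p : G × G => h (p.1 + p.2)) ∈
      Submodule.span (Zl ℓ)
        {F : G × G → Qb | ∃ b ∈ Algebra.adjoin (Zl ℓ) S, ∃ c ∈ Algebra.adjoin (Zl ℓ) S,
          F = fun p => b p.1 * c p.2} := by
    intro h hh
    have h1 : addPull ℓ G h ∈ prodAlg (Algebra.adjoin (Zl ℓ) S) := hle hh
    change (fun p : G × G => h (p.1 + p.2)) ∈
      Submodule.span (Zl ℓ) (prodSet (Algebra.adjoin (Zl ℓ) S))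
    rw [span_prodSet]
    exact h1
  exact exists_hopf_of_order ℓ act (Algebra.adjoin (Zl ℓ) S) hfg
    (equivariant_adjoin act S heq) hsepH hΔH

/-- A function on a finite set with integral values is integral in the ring of functions. -/
theorem isIntegral_fun_of_forall [Finite G] {a : G → Qb}
    (ha : ∀ x, IsIntegral (Zl ℓ) (a x)) : IsIntegral (Zl ℓ) a := by
  classical
  cases nonempty_fintype G
  choose P hP using ha
  refine ⟨∏ y, P y, Polynomial.monic_prod_of_monic _ _ fun y _ => (hP y).1, ?_⟩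
  change Polynomial.aeval a (∏ y, P y) = 0
  funext x
  have h1 : Polynomial.aeval (a x) (∏ y, P y) =
      (Pi.evalAlgHom (Zl ℓ) (fun _ : G => Qb) x) (Polynomial.aeval a (∏ y, P y)) :=
    Polynomial.aeval_algHom_apply (Pi.evalAlgHom (Zl ℓ) (fun _ : G => Qb) x) a _
  have h2 : Polynomial.aeval (a x) (∏ y, P y) = 0 := by
    rw [map_prod]
    refine Finset.prod_eq_zero (Finset.mem_univ x) ?_
    exact (hP x).2
  change (Pi.evalAlgHom (Zl ℓ) (fun _ : G => Qb) x) (Polynomial.aeval a (∏ y, P y)) = 0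
  rw [← h1, h2]

/-- **Generator form, `G` finite, pointwise integrality.** -/
theorem exists_hopf_of_generators_of_finite (ℓ : ℕ) {G : Type} [AddCommGroup G] [Finite G]
    (act : Gal → G → G)
    (S : Set (G → Qb)) (hfin : S.Finite)
    (hint : ∀ a ∈ S, ∀ x : G, IsIntegral (Zl ℓ) (a x))
    (heq : ∀ a ∈ S, ∀ (σ : Gal) (x : G), a (act σ x) = σ (a x))
    (hsep : ∀ x y : G, x ≠ y → ∃ a ∈ S, a x ≠ a y)
    (hΔ : ∀ a ∈ S, (fun p : G × G => a (p.1 + p.2)) ∈
      Submodule.span (Zl ℓ)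
        {F : G × G → Qb | ∃ b ∈ Algebra.adjoin (Zl ℓ) S, ∃ c ∈ Algebra.adjoin (Zl ℓ) S,
          F = fun p => b p.1 * c p.2}) :
    ∃ (H' : Type) (_ : CommRing H') (_ : HopfAlgebra (ratLocalizedAt ℓ) H'),
      Module.Finite (ratLocalizedAt ℓ) H' ∧ Module.Flat (ratLocalizedAt ℓ) H' ∧
      Coalgebra.IsCocomm (ratLocalizedAt ℓ) H' ∧
      ∃ e : WithConv (H' →ₐ[ratLocalizedAt ℓ] AlgebraicClosure ℚ) ≃ G,
        (∀ f g, e (f * g) = e f + e g) ∧
        ∀ (σ : AlgebraicClosure ℚ ≃ₐ[ℚ] AlgebraicClosure ℚ)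
          (f g : WithConv (H' →ₐ[ratLocalizedAt ℓ] AlgebraicClosure ℚ)),
          (∀ h : H', g h = σ (f h)) → e g = act σ (e f) :=
  exists_hopf_of_generators ℓ act S hfin (fun a ha => isIntegral_fun_of_forall (hint a ha))
    heq hsep hΔ

/-- **Polynomial form.**  `G` finite, a finite family of integral-valued equivariant functions
separating the points, with the group law given by polynomials over `ℤ_(ℓ)` in these
coordinates. -/
theorem exists_hopf_of_polynomial_law (ℓ : ℕ) {G : Type} [AddCommGroup G] [Finite G]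
    (act : Gal → G → G) {ι : Type} [Finite ι] (a : ι → G → Qb)
    (hint : ∀ (i : ι) (x : G), IsIntegral (Zl ℓ) (a i x))
    (heq : ∀ (i : ι) (σ : Gal) (x : G), a i (act σ x) = σ (a i x))
    (hsep : ∀ x y : G, x ≠ y → ∃ i, a i x ≠ a i y)
    (hΔ : ∀ i, ∃ P : MvPolynomial (ι ⊕ ι) (Zl ℓ), ∀ x y : G,
      a i (x + y) = MvPolynomial.aeval (Sum.elim (fun j => a j x) (fun j => a j y)) P) :
    ∃ (H' : Type) (_ : CommRing H') (_ : HopfAlgebra (ratLocalizedAt ℓ) H'),
      Module.Finite (ratLocalizedAt ℓ) H' ∧ Module.Flat (ratLocalizedAt ℓ) H' ∧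
      Coalgebra.IsCocomm (ratLocalizedAt ℓ) H' ∧
      ∃ e : WithConv (H' →ₐ[ratLocalizedAt ℓ] AlgebraicClosure ℚ) ≃ G,
        (∀ f g, e (f * g) = e f + e g) ∧
        ∀ (σ : AlgebraicClosure ℚ ≃ₐ[ℚ] AlgebraicClosure ℚ)
          (f g : WithConv (H' →ₐ[ratLocalizedAt ℓ] AlgebraicClosure ℚ)),
          (∀ h : H', g h = σ (f h)) → e g = act σ (e f) := by
  refine exists_hopf_of_generators_of_finite ℓ act (Set.range a) (Set.finite_range a) ?_ ?_ ?_ ?_
  · rintro _ ⟨i, rfl⟩ x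
    exact hint i x
  · rintro _ ⟨i, rfl⟩ σ x
    exact heq i σ x
  · intro x y hxy
    obtain ⟨i, hi⟩ := hsep x y hxy
    exact ⟨a i, ⟨i, rfl⟩, hi⟩
  · rintro _ ⟨i, rfl⟩
    obtain ⟨P, hP⟩ := hΔ i
    change (fun p : G × G => a i (p.1 + p.2)) ∈
      Submodule.span (Zl ℓ) (prodSet (Algebra.adjoin (Zl ℓ) (Set.range a)))
    rw [span_prodSet]
    set f : ι ⊕ ι → (G × G → Qb) :=
      Sum.elim (fun j => fun p : G × G => a j p.1) (fun j => fun p : G × G => a j p.2) with hf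
    have h1 : (fun p : G × G => a i (p.1 + p.2)) = MvPolynomial.aeval f P := by
      funext p
      rw [hP p.1 p.2]
      have h2 : (Pi.evalAlgHom (Zl ℓ) (fun _ : G × G => Qb) p).comp (MvPolynomial.aeval f) =
          MvPolynomial.aeval (fun s => (Pi.evalAlgHom (Zl ℓ) (fun _ : G × G => Qb) p) (f s)) :=
        MvPolynomial.comp_aeval _ _
      have h3 : (fun s => (Pi.evalAlgHom (Zl ℓ) (fun _ : G × G => Qb) p) (f s)) =
          Sum.elim (fun j => a j p.1) (fun j => a j p.2) := by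
        funext s
        cases s <;> rfl
      rw [h3] at h2
      rw [← h2]
      rfl
    rw [h1]
    have h4 : MvPolynomial.aeval f P ∈ Algebra.adjoin (Zl ℓ) (Set.range f) := by
      rw [Algebra.adjoin_range_eq_range_aeval]
      exact ⟨P, rfl⟩
    refine (Algebra.adjoin_le ?_ : Algebra.adjoin (Zl ℓ) (Set.range f) ≤
      prodAlg (Algebra.adjoin (Zl ℓ) (Set.range a))) h4
    rintro _ ⟨s, rfl⟩
    cases s with
    | inl j => exact fst_mem_prodAlg _ (Algebra.subset_adjoin ⟨j, rfl⟩)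
    | inr j => exact snd_mem_prodAlg _ (Algebra.subset_adjoin ⟨j, rfl⟩)

/-- **Lattice form.**  `G` finite, `L` a finitely generated `ℤ_(ℓ)`-module of integral-valued
equivariant functions separating the points with `Δ L ⊆ L ⊗ L`.  (`L` need not be a ring.) -/
theorem exists_hopf_of_lattice (ℓ : ℕ) {G : Type} [AddCommGroup G] [Finite G]
    (act : Gal → G → G) (L : Submodule (Zl ℓ) (G → Qb)) (hfg : L.FG)
    (hint : ∀ a ∈ L, ∀ x : G, IsIntegral (Zl ℓ) (a x))
    (heq : ∀ a ∈ L, ∀ (σ : Gal) (x : G), a (act σ x) = σ (a x))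
    (hsep : ∀ x y : G, x ≠ y → ∃ a ∈ L, a x ≠ a y)
    (hΔ : ∀ a ∈ L, (fun p : G × G => a (p.1 + p.2)) ∈
      Submodule.span (Zl ℓ)
        {F : G × G → Qb | ∃ b ∈ L, ∃ c ∈ L, F = fun p => b p.1 * c p.2}) :
    ∃ (H' : Type) (_ : CommRing H') (_ : HopfAlgebra (ratLocalizedAt ℓ) H'),
      Module.Finite (ratLocalizedAt ℓ) H' ∧ Module.Flat (ratLocalizedAt ℓ) H' ∧
      Coalgebra.IsCocomm (ratLocalizedAt ℓ) H' ∧
      ∃ e : WithConv (H' →ₐ[ratLocalizedAt ℓ] AlgebraicClosure ℚ) ≃ G,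
        (∀ f g, e (f * g) = e f + e g) ∧
        ∀ (σ : AlgebraicClosure ℚ ≃ₐ[ℚ] AlgebraicClosure ℚ)
          (f g : WithConv (H' →ₐ[ratLocalizedAt ℓ] AlgebraicClosure ℚ)),
          (∀ h : H', g h = σ (f h)) → e g = act σ (e f) := by
  obtain ⟨S, hSfin, hS⟩ := Submodule.fg_def.mp hfg
  have hSL : ∀ a ∈ S, a ∈ L := fun a ha => hS ▸ Submodule.subset_span ha
  have hLadj : ∀ a ∈ L, a ∈ Algebra.adjoin (Zl ℓ) S := by
    intro a ha
    rw [← hS] at ha
    exact Algebra.span_le_adjoin (Zl ℓ) S ha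
  refine exists_hopf_of_generators_of_finite ℓ act S hSfin (fun a ha => hint a (hSL a ha))
    (fun a ha => heq a (hSL a ha)) ?_ ?_
  · intro x y hxy
    by_contra hcon0
    have hcon : ∀ a ∈ S, a x = a y := fun a ha => by_contra fun h => hcon0 ⟨a, ha, h⟩
    have key : ∀ a ∈ Submodule.span (Zl ℓ) S, a x = a y := by
      intro a ha
      induction ha using Submodule.span_induction with
      | mem b hb => exact hcon b hb
      | zero => rfl
      | add b c _ _ hb hc =>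
        change b x + c x = b y + c y
        rw [hb, hc]
      | smul r b _ hb =>
        change r • b x = r • b y
        rw [hb]
    obtain ⟨a, ha, hne⟩ := hsep x y hxy
    rw [← hS] at ha
    exact hne (key a ha)
  · intro a ha
    refine Submodule.span_mono ?_ (hΔ a (hSL a ha))
    rintro _ ⟨b, hb, c, hc, rfl⟩
    exact ⟨b, hLadj b hb, c, hLadj c hc, rfl⟩

/-! ### The frozen S19 shape: `G = J₀(p)[ℓ^k]` with the Galois action `torsAct`. -/

/-- **The frozen S19 from generators** (finite set of integral-valued equivariant functions on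
`J₀(p)[ℓ^k]`, separating points, `Δ` of each generator a finite sum of products of elements of the
generated algebra). -/
theorem frozenS19_of_generators (p : ℕ) [NeZero p] (ℓ : ℕ) (k : ℕ)
    (hG : Finite ↥(Submodule.torsionBy ℤ (JZero p) ((ℓ : ℤ) ^ k)))
    (S : Set (↥(Submodule.torsionBy ℤ (JZero p) ((ℓ : ℤ) ^ k)) → AlgebraicClosure ℚ))
    (hfin : S.Finite)
    (hint : ∀ a ∈ S, ∀ x : ↥(Submodule.torsionBy ℤ (JZero p) ((ℓ : ℤ) ^ k)),
      IsIntegral (ratLocalizedAt ℓ) (a x))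
    (heq : ∀ a ∈ S, ∀ (σ : AlgebraicClosure ℚ ≃ₐ[ℚ] AlgebraicClosure ℚ)
      (x : ↥(Submodule.torsionBy ℤ (JZero p) ((ℓ : ℤ) ^ k))),
      a (torsAct ((ℓ : ℤ) ^ k) σ x) = σ (a x))
    (hsep : ∀ x y : ↥(Submodule.torsionBy ℤ (JZero p) ((ℓ : ℤ) ^ k)), x ≠ y → ∃ a ∈ S, a x ≠ a y)
    (hΔ : ∀ a ∈ S, (fun q : ↥(Submodule.torsionBy ℤ (JZero p) ((ℓ : ℤ) ^ k)) ×
        ↥(Submodule.torsionBy ℤ (JZero p) ((ℓ : ℤ) ^ k)) => a (q.1 + q.2)) ∈
      Submodule.span (ratLocalizedAt ℓ)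
        {F | ∃ b ∈ Algebra.adjoin (ratLocalizedAt ℓ) S, ∃ c ∈ Algebra.adjoin (ratLocalizedAt ℓ) S,
          F = fun q => b q.1 * c q.2}) :
    ∃ (H : Type) (_ : CommRing H) (_ : HopfAlgebra (GaloisRep.ratLocalizedAt ℓ) H),
      Module.Finite (GaloisRep.ratLocalizedAt ℓ) H ∧ Module.Flat (GaloisRep.ratLocalizedAt ℓ) H ∧
      Coalgebra.IsCocomm (GaloisRep.ratLocalizedAt ℓ) H ∧
      ∃ e : WithConv (H →ₐ[GaloisRep.ratLocalizedAt ℓ] AlgebraicClosure ℚ) ≃
          ↥(Submodule.torsionBy ℤ (JZero p) ((ℓ : ℤ) ^ k)),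
        (∀ f g, e (f * g) = e f + e g) ∧
        ∀ (σ : AlgebraicClosure ℚ ≃ₐ[ℚ] AlgebraicClosure ℚ)
          (f g : WithConv (H →ₐ[GaloisRep.ratLocalizedAt ℓ] AlgebraicClosure ℚ)),
          (∀ h : H, g h = σ (f h)) → ((e g : JZero p)) = σ • (e f : JZero p) := by
  obtain ⟨H', i1, i2, h1, h2, h3, e, he1, he2⟩ :=
    exists_hopf_of_generators_of_finite ℓ (torsAct ((ℓ : ℤ) ^ k)) S hfin hint heq hsep hΔ
  exact ⟨H', i1, i2, h1, h2, h3, e, he1, fun σ f g hfg => congrArg Subtype.val (he2 σ f g hfg)⟩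

/-- **The frozen S19 from a polynomial group law** in finitely many integral-valued equivariant
coordinates on `J₀(p)[ℓ^k]`. -/
theorem frozenS19_of_polynomial_law (p : ℕ) [NeZero p] (ℓ : ℕ) (k : ℕ)
    (hG : Finite ↥(Submodule.torsionBy ℤ (JZero p) ((ℓ : ℤ) ^ k)))
    {ι : Type} [Finite ι]
    (a : ι → ↥(Submodule.torsionBy ℤ (JZero p) ((ℓ : ℤ) ^ k)) → AlgebraicClosure ℚ)
    (hint : ∀ (i : ι) (x : ↥(Submodule.torsionBy ℤ (JZero p) ((ℓ : ℤ) ^ k))),
      IsIntegral (ratLocalizedAt ℓ) (a i x))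
    (heq : ∀ (i : ι) (σ : AlgebraicClosure ℚ ≃ₐ[ℚ] AlgebraicClosure ℚ)
      (x : ↥(Submodule.torsionBy ℤ (JZero p) ((ℓ : ℤ) ^ k))),
      a i (torsAct ((ℓ : ℤ) ^ k) σ x) = σ (a i x))
    (hsep : ∀ x y : ↥(Submodule.torsionBy ℤ (JZero p) ((ℓ : ℤ) ^ k)), x ≠ y → ∃ i, a i x ≠ a i y)
    (hΔ : ∀ i, ∃ P : MvPolynomial (ι ⊕ ι) (ratLocalizedAt ℓ),
      ∀ x y : ↥(Submodule.torsionBy ℤ (JZero p) ((ℓ : ℤ) ^ k)),
        a i (x + y) = MvPolynomial.aeval (Sum.elim (fun j => a j x) (fun j => a j y)) P) :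
    ∃ (H : Type) (_ : CommRing H) (_ : HopfAlgebra (GaloisRep.ratLocalizedAt ℓ) H),
      Module.Finite (GaloisRep.ratLocalizedAt ℓ) H ∧ Module.Flat (GaloisRep.ratLocalizedAt ℓ) H ∧
      Coalgebra.IsCocomm (GaloisRep.ratLocalizedAt ℓ) H ∧
      ∃ e : WithConv (H →ₐ[GaloisRep.ratLocalizedAt ℓ] AlgebraicClosure ℚ) ≃
          ↥(Submodule.torsionBy ℤ (JZero p) ((ℓ : ℤ) ^ k)),
        (∀ f g, e (f * g) = e f + e g) ∧
        ∀ (σ : AlgebraicClosure ℚ ≃ₐ[ℚ] AlgebraicClosure ℚ)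
          (f g : WithConv (H →ₐ[GaloisRep.ratLocalizedAt ℓ] AlgebraicClosure ℚ)),
          (∀ h : H, g h = σ (f h)) → ((e g : JZero p)) = σ • (e f : JZero p) := by
  obtain ⟨H', i1, i2, h1, h2, h3, e, he1, he2⟩ :=
    exists_hopf_of_polynomial_law ℓ (torsAct ((ℓ : ℤ) ^ k)) a hint heq hsep hΔ
  exact ⟨H', i1, i2, h1, h2, h3, e, he1, fun σ f g hfg => congrArg Subtype.val (he2 σ f g hfg)⟩

/-- **The frozen S19 from a lattice** of integral-valued equivariant functions on `J₀(p)[ℓ^k]`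
with `Δ L ⊆ L ⊗ L` (the output shape of the reduction (RED)). -/
theorem frozenS19_of_lattice (p : ℕ) [NeZero p] (ℓ : ℕ) (k : ℕ)
    (hG : Finite ↥(Submodule.torsionBy ℤ (JZero p) ((ℓ : ℤ) ^ k)))
    (L : Submodule (ratLocalizedAt ℓ)
      (↥(Submodule.torsionBy ℤ (JZero p) ((ℓ : ℤ) ^ k)) → AlgebraicClosure ℚ))
    (hfg : L.FG)
    (hint : ∀ a ∈ L, ∀ x : ↥(Submodule.torsionBy ℤ (JZero p) ((ℓ : ℤ) ^ k)),
      IsIntegral (ratLocalizedAt ℓ) (a x))
    (heq : ∀ a ∈ L, ∀ (σ : AlgebraicClosure ℚ ≃ₐ[ℚ] AlgebraicClosure ℚ)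
      (x : ↥(Submodule.torsionBy ℤ (JZero p) ((ℓ : ℤ) ^ k))),
      a (torsAct ((ℓ : ℤ) ^ k) σ x) = σ (a x))
    (hsep : ∀ x y : ↥(Submodule.torsionBy ℤ (JZero p) ((ℓ : ℤ) ^ k)), x ≠ y → ∃ a ∈ L, a x ≠ a y)
    (hΔ : ∀ a ∈ L, (fun q : ↥(Submodule.torsionBy ℤ (JZero p) ((ℓ : ℤ) ^ k)) ×
        ↥(Submodule.torsionBy ℤ (JZero p) ((ℓ : ℤ) ^ k)) => a (q.1 + q.2)) ∈
      Submodule.span (ratLocalizedAt ℓ)
        {F | ∃ b ∈ L, ∃ c ∈ L, F = fun q => b q.1 * c q.2}) :
    ∃ (H : Type) (_ : CommRing H) (_ : HopfAlgebra (GaloisRep.ratLocalizedAt ℓ) H),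
      Module.Finite (GaloisRep.ratLocalizedAt ℓ) H ∧ Module.Flat (GaloisRep.ratLocalizedAt ℓ) H ∧
      Coalgebra.IsCocomm (GaloisRep.ratLocalizedAt ℓ) H ∧
      ∃ e : WithConv (H →ₐ[GaloisRep.ratLocalizedAt ℓ] AlgebraicClosure ℚ) ≃
          ↥(Submodule.torsionBy ℤ (JZero p) ((ℓ : ℤ) ^ k)),
        (∀ f g, e (f * g) = e f + e g) ∧
        ∀ (σ : AlgebraicClosure ℚ ≃ₐ[ℚ] AlgebraicClosure ℚ)
          (f g : WithConv (H →ₐ[GaloisRep.ratLocalizedAt ℓ] AlgebraicClosure ℚ)),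
          (∀ h : H, g h = σ (f h)) → ((e g : JZero p)) = σ • (e f : JZero p) := by
  obtain ⟨H', i1, i2, h1, h2, h3, e, he1, he2⟩ :=
    exists_hopf_of_lattice ℓ (torsAct ((ℓ : ℤ) ^ k)) L hfg hint heq hsep hΔ
  exact ⟨H', i1, i2, h1, h2, h3, e, he1, fun σ f g hfg => congrArg Subtype.val (he2 σ f g hfg)⟩

end Fermat.Agent.S19.HopfGen
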