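/-
S19 (program FG), TOP CONTRACT (helper167, FG captain).

`result_of_contract : FinStatement → LevelStatement → AuxStatement → GeomStatement → RedStatement →
  <the frozen S19 type>`.

Vocabulary (helper235's abbrevs, `Fermat.Agent.S19.HopfOrder`): `Qb = AlgebraicClosure ℚ`,
`Gal = Qb ≃ₐ[ℚ] Qb`, `Zl ℓ = ↥(GaloisRep.ratLocalizedAt ℓ)`, `torsAct n σ x = ⟨σ • x, _⟩` on
`↥(Submodule.torsionBy ℤ M n)`.

* `HasCongCoords ℓ act` : the exit of the geometric producer = the input of the reduction (RED):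
  a valuation subring `A` of `ℚ̄` over `ℓ`, a separation threshold `c`, and for EVERY precision `N`
  finitely many `A`-valued coordinates `τ j : G → ℚ̄`, EXACTLY equivariant for the inertia group of
  `A`, separating the points modulo `ℓ ^ c`, whose values at `x + y` are polynomials over `A` in
  the values at `x` and `y` modulo `ℓ ^ N`.
* `FinStatement`   : `J₀(M)[ℓ^k]` is finite (landed: `S19/TorsionFinite`).
* `LevelStatement` : every point of `J₀(M)[ℓ^k]` is fixed by an open subgroup of `Gal`.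
* `AuxStatement`   : for `ℓ ∈ {2, 3}` the torsion of level `p` embeds equivariantly into the torsion
  of a level `M` with `ℓ ∤ M` and `2 ∣ M ∨ 3 ∣ M` (where the Hauptmodul charts are landed).
* `GeomStatement`  : `HasCongCoords` for `J₀(M)[ℓ^k]`, `ℓ ∤ M`, at the chart levels.
* `RedStatement`   : `HasCongCoords` ⟹ a `ℤ_(ℓ)`-lattice of integral equivariant functions closed
  under the comultiplication (the input of the landed consumer `HopfGen.exists_hopf_of_lattice`).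
-/
import Mathlib
import Fermat.Prelude.Def_FLTPrelim_Ramification
import Fermat.Prelude.Def_ModularCurve_ArithmeticGalois
import Fermat.Agent.S19.HopfGen

set_option autoImplicit false

noncomputable section

namespace Fermat.Agent.S19.Contract

open GaloisRep ModularCurve
open Fermat.Agent.S19.HopfOrder

/-- **Congruence coordinates** on a group `G` with an action of `Gal(ℚ̄/ℚ)`. -/
def HasCongCoords (ℓ : ℕ) {G : Type} [AddCommGroup G] (act : Gal → G → G) : Prop :=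
  ∃ A : ValuationSubring Qb, A.LiesOverPrime ℓ ∧ ∃ c : ℕ, ∀ N : ℕ,
    ∃ (n : ℕ) (τ : Fin n → G → Qb) (P : Fin n → MvPolynomial (Fin n ⊕ Fin n) Qb),
      (∀ j x, τ j x ∈ A) ∧
      (∀ j, ∀ σ ∈ A.inertiaSubgroupIn ℚ, ∀ x, τ j (act σ x) = σ (τ j x)) ∧
      (∀ x y, x ≠ y → ∃ j, ¬ ∃ r ∈ A, τ j x - τ j y = (ℓ : Qb) ^ c * r) ∧
      (∀ j m, (P j).coeff m ∈ A) ∧
      (∀ j x y, ∃ r ∈ A, τ j (x + y) =
        MvPolynomial.eval (Sum.elim (fun i => τ i x) (fun i => τ i y)) (P j) + (ℓ : Qb) ^ N * r)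

/-- Congruence coordinates pull back along an injective equivariant additive map. -/
theorem HasCongCoords.comap {ℓ : ℕ} {G G' : Type} [AddCommGroup G] [AddCommGroup G']
    {act : Gal → G → G} {act' : Gal → G' → G'} (φ : G →+ G') (hφ : Function.Injective φ)
    (hact : ∀ σ x, φ (act σ x) = act' σ (φ x)) (h : HasCongCoords ℓ act') :
    HasCongCoords ℓ act := by
  obtain ⟨A, hA, c, hc⟩ := h
  refine ⟨A, hA, c, fun N => ?_⟩
  obtain ⟨n, τ, P, h1, h2, h3, h4, h5⟩ := hc N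
  refine ⟨n, fun j x => τ j (φ x), P, fun j x => h1 j (φ x), ?_, ?_, h4, ?_⟩
  · intro j σ hσ x
    change τ j (φ (act σ x)) = σ (τ j (φ x))
    rw [hact, h2 j σ hσ]
  · intro x y hxy
    exact h3 (φ x) (φ y) (fun h => hxy (hφ h))
  · intro j x y
    obtain ⟨r, hr, he⟩ := h5 j (φ x) (φ y)
    refine ⟨r, hr, ?_⟩
    change τ j (φ (x + y)) = _
    rw [map_add, he]

/-- (FIN) `J₀(M)[ℓ^k]` is finite.  Landed: `S19/TorsionFinite.finite_torsion_prime_pow`. -/
def FinStatement : Prop :=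
  ∀ (M : ℕ) [NeZero M] (ℓ : ℕ) [Fact ℓ.Prime] (k : ℕ),
    Finite ↥(Submodule.torsionBy ℤ (JZero M) ((ℓ : ℤ) ^ k))

/-- (FIN.Level) every torsion point is fixed by the absolute Galois group of a number field. -/
def LevelStatement : Prop :=
  ∀ (M : ℕ) [NeZero M] (ℓ : ℕ) [Fact ℓ.Prime] (k : ℕ)
    (x : ↥(Submodule.torsionBy ℤ (JZero M) ((ℓ : ℤ) ^ k))),
    ∃ E : IntermediateField ℚ Qb, FiniteDimensional ℚ E ∧
      ∀ σ : Gal, σ ∈ E.fixingSubgroup → torsAct ((ℓ : ℤ) ^ k) σ x = x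

/-- (AUX) for `ℓ ≤ 3` the `ℓ^k`-torsion of level `p` embeds `Gal`-equivariantly into the
`ℓ^k`-torsion of a level `M` prime to `ℓ` and divisible by `2` or `3`. -/
def AuxStatement : Prop :=
  ∀ (p : ℕ) [NeZero p] (ℓ : ℕ) [Fact ℓ.Prime] (k : ℕ), ¬ ℓ ∣ p → ¬ 3 < ℓ →
    ∃ (M : ℕ) (_ : NeZero M), ¬ ℓ ∣ M ∧ (2 ∣ M ∨ 3 ∣ M) ∧
      ∃ φ : ↥(Submodule.torsionBy ℤ (JZero p) ((ℓ : ℤ) ^ k)) →+
          ↥(Submodule.torsionBy ℤ (JZero M) ((ℓ : ℤ) ^ k)),
        Function.Injective φ ∧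
        ∀ (σ : Gal) (x : ↥(Submodule.torsionBy ℤ (JZero p) ((ℓ : ℤ) ^ k))),
          φ (torsAct ((ℓ : ℤ) ^ k) σ x) = torsAct ((ℓ : ℤ) ^ k) σ (φ x)

/-- (GEOM) congruence coordinates on `J₀(M)[ℓ^k]` for `ℓ ∤ M` at the chart levels
(`3 < ℓ`: the `j`-chart; `2 ∣ M` / `3 ∣ M`: the Hauptmodul charts). -/
def GeomStatement : Prop :=
  ∀ (M : ℕ) [NeZero M] (ℓ : ℕ) [Fact ℓ.Prime] (k : ℕ), ¬ ℓ ∣ M → (3 < ℓ ∨ 2 ∣ M ∨ 3 ∣ M) →
    HasCongCoords ℓ
      (torsAct (Γ := Gal) (M := JZero M) ((ℓ : ℤ) ^ k))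

/-- (RED) congruence coordinates on a finite group with a `Gal`-action of finite level give a
`ℤ_(ℓ)`-lattice of integral-valued equivariant functions, separating the points and closed under
the comultiplication. -/
def RedStatement : Prop :=
  ∀ (ℓ : ℕ), ℓ.Prime → ∀ (G : Type) [AddCommGroup G] [Finite G] (act : Gal → G → G),
    (∀ σ x y, act σ (x + y) = act σ x + act σ y) →
    (∀ x, act 1 x = x) →
    (∀ σ τ x, act (σ * τ) x = act σ (act τ x)) →
    (∀ x, ∃ E : IntermediateField ℚ Qb, FiniteDimensional ℚ E ∧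
      ∀ σ : Gal, σ ∈ E.fixingSubgroup → act σ x = x) →
    HasCongCoords ℓ act →
    ∃ L : Submodule (Zl ℓ) (G → Qb), L.FG ∧
      (∀ a ∈ L, ∀ x : G, IsIntegral (Zl ℓ) (a x)) ∧
      (∀ a ∈ L, ∀ (σ : Gal) (x : G), a (act σ x) = σ (a x)) ∧
      (∀ x y : G, x ≠ y → ∃ a ∈ L, a x ≠ a y) ∧
      (∀ a ∈ L, (fun p : G × G => a (p.1 + p.2)) ∈
        Submodule.span (Zl ℓ)
          {F : G × G → Qb | ∃ b ∈ L, ∃ c ∈ L, F = fun p => b p.1 * c p.2})

/-- **The frozen S19 from the five strand statements.** -/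
theorem result_of_contract (hFin : FinStatement) (hLevel : LevelStatement) (hAux : AuxStatement)
    (hGeom : GeomStatement) (hRed : RedStatement)
    (p : ℕ) [NeZero p] (ℓ : ℕ) [Fact ℓ.Prime] (hℓp : ¬ ℓ ∣ p) (k : ℕ) :
    ∃ (H : Type) (_ : CommRing H) (_ : HopfAlgebra (GaloisRep.ratLocalizedAt ℓ) H),
      Module.Finite (GaloisRep.ratLocalizedAt ℓ) H ∧ Module.Flat (GaloisRep.ratLocalizedAt ℓ) H ∧
      Coalgebra.IsCocomm (GaloisRep.ratLocalizedAt ℓ) H ∧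
      ∃ e : WithConv (H →ₐ[GaloisRep.ratLocalizedAt ℓ] AlgebraicClosure ℚ) ≃
          ↥(Submodule.torsionBy ℤ (JZero p) ((ℓ : ℤ) ^ k)),
        (∀ f g, e (f * g) = e f + e g) ∧
        ∀ (σ : AlgebraicClosure ℚ ≃ₐ[ℚ] AlgebraicClosure ℚ)
          (f g : WithConv (H →ₐ[GaloisRep.ratLocalizedAt ℓ] AlgebraicClosure ℚ)),
          (∀ h : H, g h = σ (f h)) → ((e g : JZero p)) = σ • (e f : JZero p) := by
  have hG : Finite ↥(Submodule.torsionBy ℤ (JZero p) ((ℓ : ℤ) ^ k)) := hFin p ℓ k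
  have hcoords : HasCongCoords ℓ (torsAct (Γ := Gal) (M := JZero p) ((ℓ : ℤ) ^ k)) := by
    by_cases h3 : 3 < ℓ
    · exact hGeom p ℓ k hℓp (Or.inl h3)
    · obtain ⟨M, hM, hℓM, h23, φ, hφ, hφact⟩ := hAux p ℓ k hℓp h3
      exact HasCongCoords.comap φ hφ hφact (hGeom M ℓ k hℓM (Or.inr h23))
  obtain ⟨L, hfg, hint, heq, hsep, hΔ⟩ :=
    hRed ℓ (Fact.out : ℓ.Prime) ↥(Submodule.torsionBy ℤ (JZero p) ((ℓ : ℤ) ^ k))
      (torsAct (Γ := Gal) (M := JZero p) ((ℓ : ℤ) ^ k))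
      (fun σ x y => Subtype.ext (by simp [smul_add]))
      (fun x => Subtype.ext (by simp))
      (fun σ τ x => Subtype.ext (by simp [mul_smul]))
      (hLevel p ℓ k) hcoords
  exact Fermat.Agent.S19.HopfGen.frozenS19_of_lattice p ℓ k hG L hfg hint heq hsep hΔ

end Fermat.Agent.S19.Contract
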