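/-
S19 / S32, ROUTE-INDEPENDENT CONSUMER (helper235): a Hopf order of functions gives the frozen
existential of S19 (`ModularCurve.exists_finiteFlat_model_jZero_torsion`) and of
`GaloisRepAdic.IsFlatAt` (S32).

`ℤ_(ℓ) = GaloisRep.ratLocalizedAt ℓ`, `Qb = AlgebraicClosure ℚ`, `Gal = Qb ≃ₐ[ℚ] Qb`.

* `IsOrder.exists_hopf`     : abstract form (`ι : A →ₐ[ℤ_(ℓ)] (G → Qb)` with `IsOrder act ι`);
* `exists_hopf_of_order`    : subalgebra form.  For ANY abelian group `G` and ANY function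
  `act : Gal → G → G`, a finitely generated `ℤ_(ℓ)`-subalgebra `H` of `G → Qb` consisting of
  `act`-equivariant functions, separating the points of `G` and closed under
  `h ↦ ((x, y) ↦ h (x + y))` (finite sums of products) yields a finite flat cocommutative Hopf
  algebra over `ℤ_(ℓ)` whose `Qb`-points (convolution) are `G`, equivariantly.
  NOT assumed (all derived): finiteness of `G`, additivity / bijectivity of `act σ`, closure under
  the antipode, integrality of `h 0`.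
-/
import Mathlib
import Fermat.Agent.S19.HopfOrder.Points

set_option autoImplicit false

noncomputable section

namespace Fermat.Agent.S19.HopfOrder

open scoped TensorProduct
open GaloisRep

variable {ℓ : ℕ} {G : Type} [AddCommGroup G]

omit [AddCommGroup G] in
theorem lmul_map_evA {A : Type} [CommRing A] [Algebra (Zl ℓ) A] (ι : A →ₐ[Zl ℓ] (G → Qb))
    (x y : G) (t : A ⊗[Zl ℓ] A) :
    Algebra.TensorProduct.lmul' (Zl ℓ) (S := Qb)
      (Algebra.TensorProduct.map (evA ι x) (evA ι y) t) = mu2 ι t (x, y) := by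
  induction t using TensorProduct.induction_on with
  | zero => simp
  | tmul a b => simp
  | add s t hs ht => simp [map_add, hs, ht]

/-- **The consumer, abstract form.** -/
theorem IsOrder.exists_hopf {A : Type} [CommRing A] [Algebra (Zl ℓ) A] {act : Gal → G → G}
    {ι : A →ₐ[Zl ℓ] (G → Qb)} (O : IsOrder act ι) :
    ∃ (H : Type) (_ : CommRing H) (_ : HopfAlgebra (ratLocalizedAt ℓ) H),
      Module.Finite (ratLocalizedAt ℓ) H ∧ Module.Flat (ratLocalizedAt ℓ) H ∧
      Coalgebra.IsCocomm (ratLocalizedAt ℓ) H ∧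
      ∃ e : WithConv (H →ₐ[ratLocalizedAt ℓ] AlgebraicClosure ℚ) ≃ G,
        (∀ f g, e (f * g) = e f + e g) ∧
        ∀ (σ : AlgebraicClosure ℚ ≃ₐ[ℚ] AlgebraicClosure ℚ)
          (f g : WithConv (H →ₐ[ratLocalizedAt ℓ] AlgebraicClosure ℚ)),
          (∀ h : H, g h = σ (f h)) → e g = act σ (e f) := by
  refine ⟨A, inferInstance, O.hopfAlgebra, O.finite, O.flat, O.isCocomm, ?_⟩
  let E : G ≃ WithConv (A →ₐ[Zl ℓ] Qb) :=
    (Equiv.ofBijective (evA ι) ⟨O.evA_injective, O.exists_eq_evA⟩).trans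
      (WithConv.equiv (A →ₐ[Zl ℓ] Qb)).symm
  have hE : ∀ (x : G) (h : A), (E x).ofConv h = ι h x := fun x h => rfl
  refine ⟨E.symm, ?_, ?_⟩
  · intro f g
    obtain ⟨x, rfl⟩ := E.surjective f
    obtain ⟨y, rfl⟩ := E.surjective g
    rw [Equiv.symm_apply_apply, Equiv.symm_apply_apply, Equiv.symm_apply_eq]
    apply WithConv.ofConv_injective
    apply AlgHom.ext
    intro h
    change Algebra.TensorProduct.lmul' (Zl ℓ) (S := Qb)
      (Algebra.TensorProduct.map (evA ι x) (evA ι y) (O.comulHom h)) = ι h (x + y)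
    rw [lmul_map_evA, O.mu2_comulHom]
  · intro σ f g hfg
    obtain ⟨x, rfl⟩ := E.surjective f
    rw [Equiv.symm_apply_apply, Equiv.symm_apply_eq]
    apply WithConv.ofConv_injective
    apply AlgHom.ext
    intro h
    have h1 : g.ofConv h = σ ((E x).ofConv h) := hfg h
    rw [h1, hE, hE, O.equivariant]

/-- **The consumer, subalgebra form.** -/
theorem exists_hopf_of_order (ℓ : ℕ) {G : Type} [AddCommGroup G] (act : Gal → G → G)
    (H : Subalgebra (ratLocalizedAt ℓ) (G → Qb))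
    (hfg : (Subalgebra.toSubmodule H).FG)
    (heq : ∀ h ∈ H, ∀ (σ : Gal) (x : G), h (act σ x) = σ (h x))
    (hsep : ∀ x y : G, x ≠ y → ∃ h ∈ H, h x ≠ h y)
    (hΔ : ∀ h ∈ H, (fun p : G × G => h (p.1 + p.2)) ∈
      Submodule.span (ratLocalizedAt ℓ)
        {F : G × G → Qb | ∃ a ∈ H, ∃ b ∈ H, F = fun p => a p.1 * b p.2}) :
    ∃ (H' : Type) (_ : CommRing H') (_ : HopfAlgebra (ratLocalizedAt ℓ) H'),
      Module.Finite (ratLocalizedAt ℓ) H' ∧ Module.Flat (ratLocalizedAt ℓ) H' ∧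
      Coalgebra.IsCocomm (ratLocalizedAt ℓ) H' ∧
      ∃ e : WithConv (H' →ₐ[ratLocalizedAt ℓ] AlgebraicClosure ℚ) ≃ G,
        (∀ f g, e (f * g) = e f + e g) ∧
        ∀ (σ : AlgebraicClosure ℚ ≃ₐ[ℚ] AlgebraicClosure ℚ)
          (f g : WithConv (H' →ₐ[ratLocalizedAt ℓ] AlgebraicClosure ℚ)),
          (∀ h : H', g h = σ (f h)) → e g = act σ (e f) := by
  have O : IsOrder (ℓ := ℓ) act H.val := by
    refine ⟨?_, Subtype.val_injective, fun h σ x => heq h.1 h.2 σ x, ?_, ?_⟩
    · exact Module.Finite.iff_fg.mpr hfg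
    · intro x y hxy
      obtain ⟨h, hh, hne⟩ := hsep x y hxy
      exact ⟨⟨h, hh⟩, hne⟩
    · intro h
      have hle : Submodule.span (ratLocalizedAt ℓ)
          {F : G × G → Qb | ∃ a ∈ H, ∃ b ∈ H, F = fun p => a p.1 * b p.2} ≤
          LinearMap.range (mu2 H.val).toLinearMap := by
        refine Submodule.span_le.mpr ?_
        rintro _ ⟨a, ha, b, hb, rfl⟩
        refine ⟨(⟨a, ha⟩ : H) ⊗ₜ[Zl ℓ] (⟨b, hb⟩ : H), ?_⟩
        funext p
        simp
      obtain ⟨t, ht⟩ := hle (hΔ h.1 h.2)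
      exact ⟨t, ht⟩
  exact O.exists_hopf

end Fermat.Agent.S19.HopfOrder
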