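/-
FG (S19): the strand statement (AUX) of the top contract,
`Fermat.Agent.S19.Contract.AuxStatement`, from the landed level pull-back
(`S19/LevelInj`: `exists_aux_tors`).
-/
import Fermat.Agent.S19.Contract
import Fermat.Agent.S19.LevelInj.Tors

set_option autoImplicit false

namespace Fermat.Agent.S19.AuxLevel

/-- **(AUX)**: for `ℓ ∈ {2, 3}` not dividing `p`, the `ℓ^k`-torsion of `J₀(p)` embeds
Galois-equivariantly into the `ℓ^k`-torsion of `J₀(M)` for a level `M` prime to `ℓ` and divisible
by `2` or `3`. -/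
theorem aux : Fermat.Agent.S19.Contract.AuxStatement := by
  intro p _ ℓ hℓ k hℓp h3
  have hℓ' : ℓ.Prime := Fact.out
  have h23 : ℓ = 2 ∨ ℓ = 3 := by
    have h2 := hℓ'.two_le
    have h3' : ℓ ≤ 3 := not_lt.mp h3
    interval_cases ℓ
    · exact Or.inl rfl
    · exact Or.inr rfl
  exact Fermat.Agent.S19.LevelInj.exists_aux_tors p ℓ h23 hℓp k

end Fermat.Agent.S19.AuxLevel
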