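import Mathlib
import Fermat.Prelude.Def_AlgebraicCurve_DivisorClassGroup

set_option autoImplicit false
set_option linter.dupNamespace false

/-!
# S19 (FG), level-free adapter: torsion classes of `Pic0` and functions

For any function field `F / K` in the Prelude vocabulary (`Place K F`, `Divisor K F`, `Pic0 K F`):

* `mk_eq_zero_iff`        : `Pic0.mk D = 0 ↔ ∃ y ≠ 0, ∀ v, D v = v.ord y`;
* `mk_eq_mk_iff`          : `Pic0.mk D = Pic0.mk D' ↔ ∃ y ≠ 0, ∀ v, D v - D' v = v.ord y`;
* `zsmul_mk_eq_zero_iff`  : `n • Pic0.mk D = 0 ↔ ∃ f ≠ 0, ∀ v, n * D v = v.ord f`;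
* `exists_rep`            : a class `x` with `n • x = 0` is `Pic0.mk D` with `n * D v = v.ord f`;
* `dvd_ord_of_rep`        : then `n ∣ v.ord f` for all places `v`;
* `mk_eq_zero_of_pow`     : if moreover `f = g ^ m` (`n = m ≠ 0`) then `Pic0.mk D = 0`;
* `ord_eq_of_mk_eq_zero`  : if `Pic0.mk D = 0`, `D = div y`, then `v.ord f = v.ord (y ^ m)`.
-/

namespace Fermat.Agent.S19.TorsionRep

open AlgebraicCurve

variable {K F : Type*} [Field K] [Field F] [Algebra K F]

/-- A class of `Pic0` is zero iff its representative is the divisor of a function. -/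
theorem mk_eq_zero_iff (D : Divisor.degZero (K := K) (F := F)) :
    Pic0.mk D = 0 ↔ ∃ y : F, y ≠ 0 ∧ ∀ v : Place K F, (D : Divisor K F) v = v.ord y := by
  unfold Pic0.mk
  rw [QuotientAddGroup.eq_zero_iff, AddSubgroup.mem_addSubgroupOf]
  rfl

/-- Two classes agree iff the difference of the representatives is the divisor of a function. -/
theorem mk_eq_mk_iff (D D' : Divisor.degZero (K := K) (F := F)) :
    Pic0.mk D = Pic0.mk D' ↔
      ∃ y : F, y ≠ 0 ∧ ∀ v : Place K F,
        (D : Divisor K F) v - (D' : Divisor K F) v = v.ord y := by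
  have h1 : Pic0.mk D = Pic0.mk D' ↔ Pic0.mk (D - D') = 0 := by
    have h2 : Pic0.mk (D - D') = Pic0.mk D - Pic0.mk D' := rfl
    rw [h2, sub_eq_zero]
  rw [h1, mk_eq_zero_iff]
  refine exists_congr fun y => and_congr Iff.rfl (forall_congr' fun v => ?_)
  rw [AddSubgroup.coe_sub, Finsupp.sub_apply]

/-- The multiple of a class by an integer. -/
theorem zsmul_mk (n : ℤ) (D : Divisor.degZero (K := K) (F := F)) :
    n • Pic0.mk D = Pic0.mk (n • D) := rfl

/-- `n • [D] = 0` iff `n • D` is the divisor of a function. -/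
theorem zsmul_mk_eq_zero_iff (n : ℤ) (D : Divisor.degZero (K := K) (F := F)) :
    n • Pic0.mk D = 0 ↔
      ∃ f : F, f ≠ 0 ∧ ∀ v : Place K F, n * (D : Divisor K F) v = v.ord f := by
  rw [zsmul_mk, mk_eq_zero_iff]
  refine exists_congr fun y => and_congr Iff.rfl (forall_congr' fun v => ?_)
  rw [AddSubgroup.coe_zsmul, Finsupp.smul_apply, smul_eq_mul]

/-- **Representatives of torsion classes.** -/
theorem exists_rep (n : ℤ) (x : Pic0 K F) (hx : n • x = 0) :
    ∃ (D : Divisor.degZero (K := K) (F := F)) (f : F), Pic0.mk D = x ∧ f ≠ 0 ∧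
      ∀ v : Place K F, n * (D : Divisor K F) v = v.ord f := by
  obtain ⟨D, rfl⟩ := Pic0.mk_surjective x
  obtain ⟨f, hf, h⟩ := (zsmul_mk_eq_zero_iff n D).mp hx
  exact ⟨D, f, rfl, hf, h⟩

/-- Representatives of the elements of `Submodule.torsionBy`. -/
theorem exists_rep_of_mem (n : ℤ) (x : ↥(Submodule.torsionBy ℤ (Pic0 K F) n)) :
    ∃ (D : Divisor.degZero (K := K) (F := F)) (f : F), Pic0.mk D = (x : Pic0 K F) ∧ f ≠ 0 ∧
      ∀ v : Place K F, n * (D : Divisor K F) v = v.ord f :=
  exists_rep n (x : Pic0 K F) ((Submodule.mem_torsionBy_iff _ _).mp x.2)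

/-- The function of a torsion representative has divisor divisible by `n`. -/
theorem dvd_ord_of_rep {n : ℤ} {D : Divisor.degZero (K := K) (F := F)} {f : F}
    (h : ∀ v : Place K F, n * (D : Divisor K F) v = v.ord f) (v : Place K F) : n ∣ v.ord f :=
  ⟨_, (h v).symm⟩

/-- `ord` of a natural power. -/
theorem ord_npow' (v : Place K F) (f : F) (m : ℕ) : v.ord (f ^ m) = m * v.ord f := by
  have h := v.ord_zpow f (m : ℤ)
  rwa [zpow_natCast] at h

/-- If the function of a torsion representative is an `m`-th power, the class is zero. -/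
theorem mk_eq_zero_of_pow {m : ℕ} (hm : m ≠ 0) {D : Divisor.degZero (K := K) (F := F)} {f g : F}
    (hf : f ≠ 0) (h : ∀ v : Place K F, (m : ℤ) * (D : Divisor K F) v = v.ord f)
    (hg : f = g ^ m) : Pic0.mk D = 0 := by
  have hg0 : g ≠ 0 := by
    rintro rfl
    rw [zero_pow hm] at hg
    exact hf hg
  have hmZ : (m : ℤ) ≠ 0 := by exact_mod_cast hm
  refine (mk_eq_zero_iff D).mpr ⟨g, hg0, fun v => ?_⟩
  apply mul_left_cancel₀ hmZ
  rw [h v, hg, ord_npow']

/-- If the class of a torsion representative is zero, `D = div y`, then `f` and `y ^ m` have the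
same divisor. -/
theorem ord_eq_of_div_eq {m : ℕ} {D : Divisor.degZero (K := K) (F := F)} {f y : F}
    (h : ∀ v : Place K F, (m : ℤ) * (D : Divisor K F) v = v.ord f)
    (hy : ∀ v : Place K F, (D : Divisor K F) v = v.ord y) (v : Place K F) :
    v.ord f = v.ord (y ^ m) := by
  rw [ord_npow', ← hy v, h v]

/-- Two torsion representatives: the class of the sum / difference in terms of functions.  If
`m • D = div f` and `m • D' = div f'` then `m • (D - D') = div (f / f')`. -/
theorem rep_sub {m : ℤ} {D D' : Divisor.degZero (K := K) (F := F)} {f f' : F}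
    (hf : f ≠ 0) (hf' : f' ≠ 0)
    (h : ∀ v : Place K F, m * (D : Divisor K F) v = v.ord f)
    (h' : ∀ v : Place K F, m * (D' : Divisor K F) v = v.ord f') (v : Place K F) :
    m * ((D - D' : Divisor.degZero (K := K) (F := F)) : Divisor K F) v = v.ord (f / f') := by
  rw [AddSubgroup.coe_sub, Finsupp.sub_apply, mul_sub, h v, h' v, div_eq_mul_inv,
    v.ord_mul hf (inv_ne_zero hf'), v.ord_inv]
  ring

end Fermat.Agent.S19.TorsionRep
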