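import Mathlib
import Fermat.Agent.S19.Contract
import Fermat.Agent.S19.TorsionRep
import Fermat.Agent.S19.GalLevel

set_option autoImplicit false
set_option linter.dupNamespace false

/-!
# S19 (FG), row FIN.Level: `Contract.LevelStatement`

Every torsion point of `J₀(M)(ℚ̄)` is fixed by the absolute Galois group of a number field.

Proof.  A class `x` with `n • x = 0` (`n ≠ 0`) is `[D]` with `n • D = div f`
(`TorsionRep.exists_rep`); the function `f ∈ ℚ̄ · F₀` has its coefficients in a number field `E`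
(`GalLevel.openFix_smul_elt`); for `σ` fixing `E` we get `n • (σ • D) = div (σ f) = div f = n • D`,
hence `σ • D = D` and `σ • x = x`.  No hypothesis on the level, no finiteness of zeros.

* `openFix_smul_of_zsmul`      : generic form on `Pic0 L (laurentBaseChange L F₀)`;
* `exists_fd_fixing_torsion`   : on `↥(Submodule.torsionBy ℤ (JZero M) n)` with `torsAct`;
* `levelStatement`             : `Fermat.Agent.S19.Contract.LevelStatement`;
* `exists_fd_fixing_torsion_all` : one number field for a whole finite torsion group.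
-/

noncomputable section

open IntermediateField HahnSeries AlgebraicCurve ModularCurve
open Fermat.Agent.S19.GalLevel Fermat.Agent.S19.HopfOrder

namespace Fermat.Agent.S19.TorsionLevel

variable {L : Type*} [Field L] [Algebra ℚ L] (F₀ : IntermediateField ℚ (LaurentSeries ℚ))

/-- **Torsion classes of `Pic0` are fixed by an open subgroup of `Gal(L/ℚ)`.** -/
theorem openFix_smul_of_zsmul [Algebra.IsAlgebraic ℚ L] {n : ℤ} (hn : n ≠ 0)
    (x : Pic0 L (laurentBaseChange L F₀)) (hx : n • x = 0) :
    OpenFix (fun σ : L ≃ₐ[ℚ] L => σ • x = x) := by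
  obtain ⟨D, f, rfl, -, h⟩ := Fermat.Agent.S19.TorsionRep.exists_rep n x hx
  refine (openFix_smul_elt F₀ f).mono fun σ hσ => ?_
  rw [galois_smul_pic0_def, SemilinearAut.pic0_smul_mk]
  refine congrArg Pic0.mk (Subtype.ext ?_)
  rw [SemilinearAut.coe_degZeroSMulHom]
  ext w
  rw [SemilinearAut.divisor_smul_apply]
  apply mul_left_cancel₀ hn
  rw [h, h]
  have h1 := SemilinearAut.ord_smul (arithmeticGalois F₀ σ) ((arithmeticGalois F₀ σ)⁻¹ • w) f
  rw [smul_inv_smul, hσ] at h1
  exact h1.symm

/-- Every point of `J₀(M)[n]` (`n ≠ 0`) is fixed by the absolute Galois group of a number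
field. -/
theorem exists_fd_fixing_torsion (M : ℕ) {n : ℤ} (hn : n ≠ 0)
    (x : ↥(Submodule.torsionBy ℤ (JZero M) n)) :
    ∃ E : IntermediateField ℚ Qb, FiniteDimensional ℚ E ∧
      ∀ σ : Gal, σ ∈ E.fixingSubgroup → torsAct n σ x = x := by
  haveI : Algebra.IsAlgebraic ℚ Qb := AlgebraicClosure.isAlgebraic ℚ
  obtain ⟨E, hE, h⟩ := openFix_smul_of_zsmul (L := Qb) (modularFunctionFieldFull M) hn
    (x : JZero M) ((Submodule.mem_torsionBy_iff _ _).mp x.2)
  exact ⟨E, hE, fun σ hσ => Subtype.ext
    (h σ fun e he => (IntermediateField.mem_fixingSubgroup_iff E σ).mp hσ e he)⟩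

/-- **(FIN.Level)** the contract statement. -/
theorem levelStatement : Fermat.Agent.S19.Contract.LevelStatement := fun M _ ℓ _ k x =>
  exists_fd_fixing_torsion M
    (pow_ne_zero k (Int.natCast_ne_zero.mpr (Fact.out : ℓ.Prime).ne_zero)) x

/-- One number field for the whole torsion group, when it is finite. -/
theorem exists_fd_fixing_torsion_all (M : ℕ) {n : ℤ} (hn : n ≠ 0)
    [Finite ↥(Submodule.torsionBy ℤ (JZero M) n)] :
    ∃ E : IntermediateField ℚ Qb, FiniteDimensional ℚ E ∧
      ∀ σ : Gal, σ ∈ E.fixingSubgroup →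
        ∀ x : ↥(Submodule.torsionBy ℤ (JZero M) n), torsAct n σ x = x := by
  haveI : Algebra.IsAlgebraic ℚ Qb := AlgebraicClosure.isAlgebraic ℚ
  have h := openFix_forall (L := Qb)
    (fun (x : ↥(Submodule.torsionBy ℤ (JZero M) n)) (σ : Qb ≃ₐ[ℚ] Qb) =>
      σ • (x : JZero M) = (x : JZero M))
    (fun x => openFix_smul_of_zsmul (L := Qb) (modularFunctionFieldFull M) hn
      (x : JZero M) ((Submodule.mem_torsionBy_iff _ _).mp x.2))
  obtain ⟨E, hE, h⟩ := h
  exact ⟨E, hE, fun σ hσ x => Subtype.ext
    (h σ (fun e he => (IntermediateField.mem_fixingSubgroup_iff E σ).mp hσ e he) x)⟩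

end Fermat.Agent.S19.TorsionLevel

end
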