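import Fermat.Agent.S36.WSq

/-!
# Pull-back to an auxiliary level is injective on Kummer classes (function level)

`r` a prime, `r ∤ N`, `α : F_N → F_{Nr}` the Prelude degeneracy map `heckeAlphaBar` (inclusion of
`q`-expansions), `m ≥ 1` prime to `r`.

* `mem_range_alpha_of_pow` : if `α f = c · g ^ m` with `f ≠ 0`, `g ∈ F_{Nr}`, `c` a constant,
  then `g ∈ α (F_N)`.
* `exists_eq_pow_of_alpha` : hence `f = c · g₁ ^ m` with `g₁ ∈ F_N`.

In divisor language: if `m D = div f` on `X₀(N)` and the pull-back of `D` to `X₀(Nr)` is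
principal, then `D` is principal, i.e. `α^* : J₀(N)[m] → J₀(Nr)[m]` is injective for `(m, r) = 1`
(used for `m = 2^k`, `r = 3` and `m = 3^k`, `r = 2`).

Proof (no places, no ramification indices, no Kummer theory).  The `r + 1` embeddings of `F_{Nr}`
over `α (F_N)` into `ℚ̄((q))` are `S_∞ : y ↦ y(q^r)` and `S_i = (q ↦ zⁱ q) ∘ S_0`, `i < r`
(`Fermat.Agent.S36.VirtEmb.exists_embeddings`, with the inputs of `S30/E4/HeckeNorm`).  All
`S_x (g) ^ m` are equal, so `h := S_0 g` satisfies `h(zⁱ q) ^ m = h(q) ^ m`; comparing one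
coefficient, `h(zⁱ q) = h(q)` because `(m, r) = 1`: the `r` conjugates of `g` at the cusp `0`
coincide.  Also `h = ζ · S_∞ g` with `ζ ^ m = 1`.  The trace formula gives
`(Tr g)(q^r) = (1 + r ζ) · S_∞ g` and `1 + r ζ ≠ 0`, hence `S_∞ g = S_∞ (α g₁)` with
`g₁ = (1 + r ζ)⁻¹ Tr g ∈ F_N`.
-/

set_option autoImplicit false

noncomputable section

open HahnSeries ModularCurve AlgebraicCurve IntermediateField

namespace Fermat.Agent.S19.AuxInj

open Fermat.Agent.S30 Fermat.Agent.S30.E4 Fermat.Agent.S36.WSq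

local notation "Qb" => AlgebraicClosure ℚ

/-! ### A formal lemma -/

/-- If `h(ζ q) ^ m = h(q) ^ m` with `ζ ^ r = 1`, `(m, r) = 1` and `h ≠ 0`, then
`h(ζ q) = h(q)`. -/
theorem rescale_eq_self_of_pow_eq (m r : ℕ) (hm : 0 < m) (hmr : Nat.Coprime m r) (ζ : Qbˣ)
    (hζ : ζ ^ r = 1) (h : LaurentSeries Qb) (h0 : h ≠ 0)
    (hpow : Congr.rescale ζ h ^ m = h ^ m) : Congr.rescale ζ h = h := by
  have : NeZero m := ⟨hm.ne'⟩
  obtain ⟨ω, hω⟩ := HasEnoughRootsOfUnity.exists_primitiveRoot Qb m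
  have hu : (Congr.rescale ζ h * h⁻¹) ^ m = 1 := by
    rw [mul_pow, hpow, inv_pow, mul_inv_cancel₀ (pow_ne_zero m h0)]
  have hωC : IsPrimitiveRoot (HahnSeries.C ω : LaurentSeries Qb) m :=
    hω.map_of_injective HahnSeries.C_injective
  obtain ⟨i, -, hi⟩ := hωC.eq_pow_of_pow_eq_one hu
  have h1 : Congr.rescale ζ h = HahnSeries.C (ω ^ i) * h := by
    rw [map_pow, hi, mul_assoc, inv_mul_cancel₀ h0, mul_one]
  obtain ⟨n, hn⟩ : ∃ n, h.coeff n ≠ 0 := by
    by_contra hcon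
    push Not at hcon
    exact h0 (HahnSeries.ext (funext hcon))
  have h2 : ((ζ ^ n : Qbˣ) : Qb) * h.coeff n = ω ^ i * h.coeff n := by
    have h3 := congrArg (fun x : LaurentSeries Qb => x.coeff n) h1
    simp only [Congr.coeff_rescale, HahnSeries.C_mul_eq_smul, HahnSeries.coeff_smul,
      smul_eq_mul] at h3
    exact h3
  have h3 : ((ζ ^ n : Qbˣ) : Qb) = ω ^ i := mul_right_cancel₀ hn h2
  have hξm : (ω ^ i) ^ m = 1 := by
    rw [← pow_mul, mul_comm, pow_mul, hω.pow_eq_one, one_pow]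
  have hξr : (ω ^ i) ^ r = 1 := by
    rw [← h3, ← Units.val_pow_eq_pow_val, ← zpow_natCast, ← zpow_mul, mul_comm, zpow_mul,
      zpow_natCast, hζ, one_zpow, Units.val_one]
  have hξ : ω ^ i = 1 := by
    have h4 : (ω ^ i) ^ (m.gcd r) = 1 := pow_gcd_eq_one.mpr ⟨hξm, hξr⟩
    rwa [Nat.Coprime.gcd_eq_one hmr, pow_one] at h4
  rw [h1, hξ, map_one, one_mul]

/-! ### The embeddings of `F_{Nr}` over `α (F_N)` -/

variable (N r : ℕ) [NeZero N] [NeZero r]

/-- The base embedding `f ↦ f(q^r)` of `F_N`. -/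
def phiInf (hr : 0 < r) : Fb N →+* LaurentSeries Qb := (Congr.expand r hr).comp (coeHom N)

omit [NeZero N] [NeZero r] in
@[simp] theorem phiInf_apply (hr : 0 < r) (f : Fb N) :
    phiInf N r hr f = Congr.expand r hr (f : LaurentSeries Qb) := rfl

omit [NeZero N] [NeZero r] in
/-- `f ↦ f(q^r)` fixes the constants. -/
theorem phiInf_algebraMap (hr : 0 < r) (c : Qb) :
    phiInf N r hr (algebraMap Qb (Fb N) c) = HahnSeries.C c := by
  have h1 : ((algebraMap Qb (Fb N) c : Fb N) : LaurentSeries Qb) = HahnSeries.single 0 c :=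
    algebraMap_laurentSeries_eq_single Qb c
  rw [phiInf_apply, h1, Congr.expand_single, mul_zero, HahnSeries.C_apply]

/-- The virtual conjugates of `b(q^r)` over `α (F_N)`: `b(q^{r²})` and `b(zⁱ q)`, `i < r`
(as seen through `q ↦ q^r`). -/
def cAll (hr : 0 < r) (z : Qbˣ) : Option (Fin r) → Fb N →+* LaurentSeries Qb
  | none => (Congr.expand r hr).comp ((coeHom (N * r)).comp (heckeBetaBar Qb N r).toRingHom)
  | some i => (Congr.rescale (z ^ (i : ℕ))).comp (coeHom N)

theorem phiInf_norm_beta (hr : r.Prime) (hrN : ¬ r ∣ N) (z : Qbˣ) (hz : IsPrimitiveRoot z r)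
    (b : Fb N) :
    letI := algebraAlong (heckeAlphaBar Qb N r)
    phiInf N r hr.pos (Algebra.norm (Fb N) (heckeBetaBar Qb N r b))
      = ∏ x, cAll N r hr.pos z x b := by
  rw [HeckeNorm.norm_beta_eq N r hr hrN z hz b, Fintype.prod_option]
  show Congr.expand r hr.pos (Congr.heckeMul r hr.pos z (b : LaurentSeries Qb))
    = Congr.expand r hr.pos ((heckeBetaBar Qb N r b : Fb (N * r)) : LaurentSeries Qb)
      * ∏ i : Fin r, Congr.rescale (z ^ (i : ℕ)) (b : LaurentSeries Qb)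
  rw [coe_beta N r hr.pos, ← conjProd_eq_prod_fin, ← Congr.expand_normL r hr.pos z hz]
  unfold Congr.heckeMul
  rw [map_mul]

/-- **The embeddings of `F_{Nr}` over `α (F_N)`** with the trace formula. -/
theorem exists_emb (hr : r.Prime) (hrN : ¬ r ∣ N) (z : Qbˣ) (hz : IsPrimitiveRoot z r) :
    letI := algebraAlong (heckeAlphaBar Qb N r)
    ∃ s : Option (Fin r) → Fb (N * r) →+* LaurentSeries Qb,
      (∀ x (f : Fb N), s x (heckeAlphaBar Qb N r f) = phiInf N r hr.pos f) ∧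
      (∀ x (b : Fb N), s x (heckeBetaBar Qb N r b) = cAll N r hr.pos z x b) ∧
      (∀ y : Fb (N * r),
        phiInf N r hr.pos (Algebra.trace (Fb N) (Fb (N * r)) y) = ∑ x, s x y) := by
  let _ : Algebra (Fb N) (Fb (N * r)) := algebraAlong (heckeAlphaBar Qb N r)
  have hfd : Module.finrank (Fb N) (Fb (N * r)) = r + 1 := HeckeNorm.finrankAlong_alpha N r hr hrN
  have : FiniteDimensional (Fb N) (Fb (N * r)) := HeckeNorm.finiteAlong_alpha N r hr hrN
  obtain ⟨s, h1, h2, -, h4, -, -⟩ := Fermat.Agent.S36.VirtEmb.exists_embeddings (phiInf N r hr.pos)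
    (heckeBetaBar Qb N r).toRingHom (cAll N r hr.pos z) (HeckeNorm.adjoin_range_beta N r hr)
    (by rw [hfd, Fintype.card_option, Fintype.card_fin])
    (fun b => phiInf_norm_beta N r hr hrN z hz b)
  exact ⟨s, fun x f => h1 x f, fun x b => h2 x b, h4⟩

/-! ### Injectivity -/

/-- **Pull-back to level `N r` is injective on Kummer classes of exponent prime to `r`**:
if `α f = c · g ^ m` with `g ∈ F_{Nr}`, then `g ∈ α (F_N)`. -/
theorem mem_range_alpha_of_pow (hr : r.Prime) (hrN : ¬ r ∣ N) (m : ℕ) (hm : 0 < m)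
    (hmr : Nat.Coprime m r) (f : Fb N) (hf : f ≠ 0) (g : Fb (N * r)) (c : Qb)
    (h : heckeAlphaBar Qb N r f = algebraMap Qb (Fb (N * r)) c * g ^ m) :
    ∃ g₁ : Fb N, g = heckeAlphaBar Qb N r g₁ := by
  let _ : Algebra (Fb N) (Fb (N * r)) := algebraAlong (heckeAlphaBar Qb N r)
  have : NeZero m := ⟨hm.ne'⟩
  obtain ⟨z, hz⟩ : ∃ z : Qbˣ, IsPrimitiveRoot z r := by
    obtain ⟨z₀, hz₀⟩ := HasEnoughRootsOfUnity.exists_primitiveRoot Qb r
    exact ⟨(hz₀.isUnit (NeZero.ne r)).unit, IsPrimitiveRoot.coe_units_iff.mp hz₀⟩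
  obtain ⟨s, hs1, hs2, hsT⟩ := exists_emb N r hr hrN z hz
  have hαf : heckeAlphaBar Qb N r f ≠ 0 := (map_ne_zero (heckeAlphaBar Qb N r)).mpr hf
  have hg0 : g ≠ 0 := by
    rintro rfl
    rw [zero_pow hm.ne', mul_zero] at h
    exact hαf h
  have hc0 : algebraMap Qb (Fb (N * r)) c ≠ 0 := by
    intro h0
    rw [h0, zero_mul] at h
    exact hαf h
  -- all conjugates of `g` have the same `m`-th power
  have hcst : ∀ x, s x (algebraMap Qb (Fb (N * r)) c) = HahnSeries.C c := by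
    intro x
    have e : algebraMap Qb (Fb (N * r)) c = heckeAlphaBar Qb N r (algebraMap Qb (Fb N) c) :=
      (AlgHom.commutes _ c).symm
    rw [e, hs1, phiInf_algebraMap]
  have hCc : (HahnSeries.C c : LaurentSeries Qb) ≠ 0 := by
    have h1 := hcst none
    rw [← h1]
    exact (map_ne_zero (s none)).mpr hc0
  have hpowx : ∀ x, HahnSeries.C c * s x g ^ m = phiInf N r hr.pos f := by
    intro x
    rw [← hcst x, ← map_pow, ← map_mul, ← h, hs1]
  have hpow : ∀ x y, s x g ^ m = s y g ^ m := fun x y =>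
    mul_left_cancel₀ hCc ((hpowx x).trans (hpowx y).symm)
  -- the conjugates at the cusp `0`
  let i0 : Fin r := ⟨0, hr.pos⟩
  have hzi : ∀ i : ℕ, (z ^ i) ^ r = 1 := fun i => by
    rw [← pow_mul, mul_comm, pow_mul, hz.pow_eq_one, one_pow]
  have hsi : ∀ i : Fin r, s (some i) = (Congr.rescale (z ^ (i : ℕ))).comp (s (some i0)) := by
    intro i
    refine Fermat.Agent.S36.VirtEmb.ext_of_gen (heckeBetaBar Qb N r).toRingHom (HeckeNorm.adjoin_range_beta N r hr)
      _ _ ?_ ?_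
    · intro f'
      show s (some i) (heckeAlphaBar Qb N r f')
        = Congr.rescale (z ^ (i : ℕ)) (s (some i0) (heckeAlphaBar Qb N r f'))
      rw [hs1, hs1, phiInf_apply, rescale_expand_of_pow_eq_one hr.pos (z ^ (i : ℕ)) (hzi i)]
    · intro b
      show s (some i) (heckeBetaBar Qb N r b)
        = Congr.rescale (z ^ (i : ℕ)) (s (some i0) (heckeBetaBar Qb N r b))
      rw [hs2, hs2]
      show Congr.rescale (z ^ (i : ℕ)) (b : LaurentSeries Qb)
        = Congr.rescale (z ^ (i : ℕ)) (Congr.rescale (z ^ 0) (b : LaurentSeries Qb))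
      rw [pow_zero, Congr.rescale_one]
  have hh0ne : s (some i0) g ≠ 0 := (map_ne_zero (s (some i0))).mpr hg0
  have hall : ∀ i : Fin r, s (some i) g = s (some i0) g := by
    intro i
    have h1 : s (some i) g = Congr.rescale (z ^ (i : ℕ)) (s (some i0) g) := by
      rw [hsi i]
      rfl
    rw [h1]
    refine rescale_eq_self_of_pow_eq m r hm hmr (z ^ (i : ℕ)) (hzi i) _ hh0ne ?_
    rw [← h1]
    exact hpow (some i) (some i0)
  -- `S_0 g = ζ · S_∞ g`
  have hGne : s none g ≠ 0 := (map_ne_zero (s none)).mpr hg0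
  have hratio : (s (some i0) g * (s none g)⁻¹) ^ m = 1 := by
    rw [mul_pow, hpow (some i0) none, inv_pow, mul_inv_cancel₀ (pow_ne_zero m hGne)]
  obtain ⟨ω, hω⟩ := HasEnoughRootsOfUnity.exists_primitiveRoot Qb m
  have hωC : IsPrimitiveRoot (HahnSeries.C ω : LaurentSeries Qb) m :=
    hω.map_of_injective HahnSeries.C_injective
  obtain ⟨i, -, hi⟩ := hωC.eq_pow_of_pow_eq_one hratio
  have hh0G : s (some i0) g = HahnSeries.C (ω ^ i) * s none g := by
    rw [map_pow, hi, mul_assoc, inv_mul_cancel₀ hGne, mul_one]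
  -- the trace
  have htr := hsT g
  rw [Fintype.sum_option, Finset.sum_congr rfl (fun i _ => hall i), Finset.sum_const,
    Finset.card_univ, Fintype.card_fin, nsmul_eq_mul, hh0G] at htr
  -- the constant `1 + r ζ` does not vanish
  have hd0 : (1 + (r : Qb) * ω ^ i) ≠ 0 := by
    intro hd
    have h1 : (r : Qb) * ω ^ i = -1 := by linear_combination hd
    have h2 : ((r : Qb) * ω ^ i) ^ m = (-1) ^ m := by rw [h1]
    rw [mul_pow, ← pow_mul, mul_comm i m, pow_mul, hω.pow_eq_one, one_pow, mul_one] at h2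
    have hlt : 1 < r ^ m := Nat.one_lt_pow hm.ne' hr.one_lt
    rcases Nat.even_or_odd m with he | ho
    · rw [he.neg_one_pow] at h2
      have h3 : r ^ m = 1 := by exact_mod_cast h2
      omega
    · rw [ho.neg_one_pow] at h2
      have h3 : ((r ^ m + 1 : ℕ) : Qb) = 0 := by
        push_cast
        linear_combination h2
      have h4 : r ^ m + 1 = 0 := by exact_mod_cast h3
      omega
  refine ⟨algebraMap Qb (Fb N) (1 + (r : Qb) * ω ^ i)⁻¹ * Algebra.trace (Fb N) (Fb (N * r)) g, ?_⟩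
  apply (s none).injective
  rw [hs1, map_mul, phiInf_algebraMap, htr]
  have h5 : (HahnSeries.C (1 + (r : Qb) * ω ^ i)⁻¹ : LaurentSeries Qb)
      * HahnSeries.C (1 + (r : Qb) * ω ^ i) = 1 := by
    rw [← map_mul, inv_mul_cancel₀ hd0, map_one]
  have h6 : (HahnSeries.C (1 + (r : Qb) * ω ^ i) : LaurentSeries Qb)
      = 1 + (r : LaurentSeries Qb) * HahnSeries.C (ω ^ i) := by
    rw [map_add, map_one, map_mul, map_natCast]
  calc s none g = (HahnSeries.C (1 + (r : Qb) * ω ^ i)⁻¹ * HahnSeries.C (1 + (r : Qb) * ω ^ i))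
        * s none g := by rw [h5, one_mul]
    _ = HahnSeries.C (1 + (r : Qb) * ω ^ i)⁻¹
        * (s none g + (r : LaurentSeries Qb) * (HahnSeries.C (ω ^ i) * s none g)) := by
      rw [h6]
      ring

/-- **Injectivity of the pull-back, Kummer form**: if `α f = c · g ^ m` with `g ∈ F_{Nr}`
(`r` prime, `r ∤ N`, `(m, r) = 1`), then `f = c · g₁ ^ m` with `g₁ ∈ F_N`. -/
theorem exists_eq_pow_of_alpha (hr : r.Prime) (hrN : ¬ r ∣ N) (m : ℕ) (hm : 0 < m)
    (hmr : Nat.Coprime m r) (f : Fb N) (g : Fb (N * r)) (c : Qb)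
    (h : heckeAlphaBar Qb N r f = algebraMap Qb (Fb (N * r)) c * g ^ m) :
    ∃ g₁ : Fb N, f = algebraMap Qb (Fb N) c * g₁ ^ m := by
  by_cases hf : f = 0
  · exact ⟨0, by rw [hf, zero_pow hm.ne', mul_zero]⟩
  · obtain ⟨g₁, hg₁⟩ := mem_range_alpha_of_pow N r hr hrN m hm hmr f hf g c h
    refine ⟨g₁, ?_⟩
    have hinj : Function.Injective (heckeAlphaBar Qb N r) :=
      (heckeAlphaBar Qb N r).toRingHom.injective
    apply hinj
    rw [h, hg₁, map_mul, map_pow, AlgHom.commutes]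

end Fermat.Agent.S19.AuxInj
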