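import Mathlib
import Fermat.Agent.S19.Contract
import Fermat.Agent.S19.TorsionFinite
import Fermat.Agent.S19.TorsionLevel

set_option autoImplicit false
set_option linter.dupNamespace false

/-!
# S19 (FG): the two finiteness strands of the top contract, discharged

* `finStatement   : Contract.FinStatement`   (from `TorsionFinite.finite_torsion_prime_pow`);
* `levelStatement : Contract.LevelStatement` (re-exported from `TorsionLevel.levelStatement`);
* `result_of_aux_geom_red` : the frozen S19 type from the three remaining strands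
  `AuxStatement`, `GeomStatement`, `RedStatement`.
-/

namespace Fermat.Agent.S19.FinStmt

open ModularCurve Fermat.Agent.S19.Contract

/-- **(FIN)** `J₀(M)[ℓ^k]` is finite. -/
theorem finStatement : FinStatement := fun M _ ℓ _ k =>
  Fermat.Agent.S19.TorsionFinite.finite_torsion_prime_pow M ℓ k

/-- **(FIN.Level)** every torsion point is fixed by the absolute Galois group of a number field. -/
theorem levelStatement : LevelStatement := Fermat.Agent.S19.TorsionLevel.levelStatement

/-- **The frozen S19 from the three remaining strands.** -/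
theorem result_of_aux_geom_red (hAux : AuxStatement) (hGeom : GeomStatement) (hRed : RedStatement)
    (p : ℕ) [NeZero p] (ℓ : ℕ) [Fact ℓ.Prime] (hℓp : ¬ ℓ ∣ p) (k : ℕ) :
    ∃ (H : Type) (_ : CommRing H) (_ : HopfAlgebra (GaloisRep.ratLocalizedAt ℓ) H),
      Module.Finite (GaloisRep.ratLocalizedAt ℓ) H ∧ Module.Flat (GaloisRep.ratLocalizedAt ℓ) H ∧
      Coalgebra.IsCocomm (GaloisRep.ratLocalizedAt ℓ) H ∧
      ∃ e : WithConv (H →ₐ[GaloisRep.ratLocalizedAt ℓ] AlgebraicClosure ℚ) ≃
          ↥(Submodule.torsionBy ℤ (JZero p) ((ℓ : ℤ) ^ k)),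
        (∀ f g, e (f * g) = e f + e g) ∧
        ∀ (σ : AlgebraicClosure ℚ ≃ₐ[ℚ] AlgebraicClosure ℚ)
          (f g : WithConv (H →ₐ[GaloisRep.ratLocalizedAt ℓ] AlgebraicClosure ℚ)),
          (∀ h : H, g h = σ (f h)) → ((e g : JZero p)) = σ • (e f : JZero p) :=
  result_of_contract finStatement levelStatement hAux hGeom hRed p ℓ hℓp k

end Fermat.Agent.S19.FinStmt
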