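import Mathlib
import Fermat.Agent.Lib.FinPolyFun

/-!
# The algebraic core of the S19 key lemma, on a finite set of points

Level-free algebra for Program FG (S19), on top of `Lib/FinPolyFun` (helper59's (L1)-(L5));
helper217.
`A` is a local ring, `S` a finite set, `R` a subalgebra of `S → A` with a conductor `c`
(`c • f ∈ R` for every `f`).  Every variant of the key lemma (chord construction in `|3 D₀|`,
chi-matrix with `t := u`, three-divisor sum-zero configuration) has the same algebraic core: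

* `value_mem`: a function of `s` which has a remainder expansion in powers of a coordinate
  `ξ ∈ R` (with values in a neighbourhood of zero: `c ∣ ξ s ^ m`) with coefficients in `R`
  lies in `R`;
* `solve_mem`: the solution of a linear system with entries in `R` whose matrix is congruent
  modulo the maximal ideal to a constant matrix with a left inverse has coordinates in `R`
  (no count of conditions is needed); `solve_mem_maximalIdeal`: they lie in the maximal ideal
  pointwise if the right-hand side does;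
* `root_mem`: the residual zero `ζ`, characterised by `ζ + γ₀ + ∑ γⱼ eⱼ(ζ) = 0` with
  `γ₀, γⱼ ∈ R` pointwise in the maximal ideal and `eⱼ` given by remainder expansions, lies in `R`;
* `residual_mem`: the three together.
-/

set_option autoImplicit false

namespace Fermat.Agent.S19.KeyAlg

open Fermat.Agent.Lib.FinPolyFun Polynomial

universe u v

variable {A : Type u} [CommRing A] {S : Type v}

/-- **Values of an expansion.**  If `e s = ∑_{k<m} aₖ(s) ξ(s)ᵏ + ξ(s)ᵐ b(s)` with `aₖ, ξ ∈ R` and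
the conductor `c` of `R` divides `ξ(s)ᵐ` for every `s`, then `e ∈ R`. -/
theorem value_mem (R : Subalgebra A (S → A)) {c : A} (hc : ∀ f : S → A, c • f ∈ R)
    {ξ : S → A} (hξ : ξ ∈ R) {m : ℕ} (hpow : ∀ s, c ∣ ξ s ^ m)
    (e : S → A) (a : ℕ → S → A) (ha : ∀ k, a k ∈ R) (b : S → A)
    (hexp : ∀ s, e s = ∑ k ∈ Finset.range m, a k s * ξ s ^ k + ξ s ^ m * b s) : e ∈ R := by
  have hr : (∑ k ∈ Finset.range m, a k * ξ ^ k) ∈ R :=
    R.sum_mem fun k _ => R.mul_mem (ha k) (R.pow_mem hξ k)
  refine mem_of_dvd_sub R hc hr fun s => ?_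
  rw [hexp s, Finset.sum_apply]
  simp only [Pi.mul_apply, Pi.pow_apply, add_sub_cancel_left]
  exact Dvd.dvd.mul_right (hpow s) _

section Local

variable [IsLocalRing A]

/-- `1 + x` is a unit for `x` in the maximal ideal. -/
theorem isUnit_one_add_of_mem {x : A} (hx : x ∈ IsLocalRing.maximalIdeal A) : IsUnit (1 + x) := by
  by_contra hu
  have h1 : 1 + x ∈ IsLocalRing.maximalIdeal A := (IsLocalRing.mem_maximalIdeal _).2 hu
  have h2 : (1 : A) ∈ IsLocalRing.maximalIdeal A := by
    have h3 := Ideal.sub_mem _ h1 hx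
    rwa [add_sub_cancel_right] at h3
  exact (Ideal.ne_top_iff_one _).1 (IsLocalRing.maximalIdeal.isMaximal A).ne_top h2

/-- A square matrix congruent to the identity modulo the maximal ideal has unit determinant. -/
theorem isUnit_det_of_sub_one_mem {κ : Type*} [Fintype κ] [DecidableEq κ] (M : Matrix κ κ A)
    (h : ∀ i j, (M - 1) i j ∈ IsLocalRing.maximalIdeal A) : IsUnit M.det := by
  have h1 : (Ideal.Quotient.mk (IsLocalRing.maximalIdeal A)).mapMatrix M = 1 := by
    ext i j
    have hij := h i j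
    rw [Matrix.sub_apply] at hij
    rw [RingHom.mapMatrix_apply, Matrix.map_apply]
    by_cases e : i = j
    · subst e
      rw [Matrix.one_apply_eq] at hij ⊢
      exact (Ideal.Quotient.eq.2 hij).trans (map_one _)
    · rw [Matrix.one_apply_ne e, sub_zero] at hij
      rw [Matrix.one_apply_ne e]
      exact Ideal.Quotient.eq_zero_iff_mem.2 hij
  have h2 : Ideal.Quotient.mk (IsLocalRing.maximalIdeal A) M.det = 1 := by
    rw [RingHom.map_det, h1, Matrix.det_one]
  have h4 : M.det - 1 ∈ IsLocalRing.maximalIdeal A :=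
    Ideal.Quotient.eq.1 (h2.trans (map_one _).symm)
  have h5 : M.det = 1 + (M.det - 1) := by ring
  rw [h5]
  exact isUnit_one_add_of_mem h4

/-- The matrix `N * M(s)` of the next lemmas has unit determinant. -/
theorem isUnit_det_leftInv_mul {ι κ : Type*} [Fintype ι] [Fintype κ] [DecidableEq κ]
    (M : Matrix ι κ (S → A)) (M₀ : Matrix ι κ A) (N : Matrix κ ι A) (hN : N * M₀ = 1)
    (hred : ∀ i j s, M i j s - M₀ i j ∈ IsLocalRing.maximalIdeal A) (s : S) :
    IsUnit ((N.map (algebraMap A (S → A)) * M).det s) := by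
  have h1 : (N.map (algebraMap A (S → A)) * M).det s
      = ((Pi.evalRingHom (fun _ : S => A) s).mapMatrix (N.map (algebraMap A (S → A)) * M)).det := by
    rw [← RingHom.map_det]
    rfl
  rw [h1]
  apply isUnit_det_of_sub_one_mem
  intro i j
  have h2 : ((Pi.evalRingHom (fun _ : S => A) s).mapMatrix (N.map (algebraMap A (S → A)) * M) - 1)
      i j = ∑ l, N i l * (M l j s - M₀ l j) := by
    rw [Matrix.sub_apply, ← hN, Matrix.mul_apply, RingHom.mapMatrix_apply, Matrix.map_apply,
      Matrix.mul_apply, map_sum, ← Finset.sum_sub_distrib]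
    refine Finset.sum_congr rfl fun l _ => ?_
    rw [map_mul, Matrix.map_apply, Pi.evalRingHom_apply, Pi.evalRingHom_apply,
      Pi.algebraMap_apply, Algebra.algebraMap_self, RingHom.id_apply]
    ring
  rw [h2]
  exact Ideal.sum_mem _ fun l _ => Ideal.mul_mem_left _ _ (hred l j s)

variable [Finite S]

/-- **Solving with a left inverse of the reduced matrix.**  Let `M` be an `ι × κ` matrix with
entries in `R` which is congruent, at every point, to a constant matrix `M₀` which has a left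
inverse `N` over `A`.  Then every solution `x` of `M x = w`, `w ∈ R^ι`, has coordinates in `R`. -/
theorem solve_mem {ι κ : Type*} [Fintype ι] [Fintype κ] [DecidableEq κ]
    (R : Subalgebra A (S → A)) (M : Matrix ι κ (S → A)) (hM : ∀ i j, M i j ∈ R)
    (M₀ : Matrix ι κ A) (N : Matrix κ ι A) (hN : N * M₀ = 1)
    (hred : ∀ i j s, M i j s - M₀ i j ∈ IsLocalRing.maximalIdeal A)
    (w : ι → S → A) (hw : ∀ i, w i ∈ R) (x : κ → S → A) (hMx : M.mulVec x = w) (j : κ) :
    x j ∈ R := by
  have hN'R : ∀ i l, (N.map (algebraMap A (S → A))) i l ∈ R := fun i l => R.algebraMap_mem _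
  refine cramer_mem R (N.map (algebraMap A (S → A)) * M) ?_
    ((N.map (algebraMap A (S → A))).mulVec w) x ?_
    (isUnit_det_leftInv_mul M M₀ N hN hred) ?_ j
  · intro i j
    rw [Matrix.mul_apply]
    exact R.sum_mem fun l _ => R.mul_mem (hN'R i l) (hM l j)
  · intro i
    exact R.sum_mem fun l _ => R.mul_mem (hN'R i l) (hw l)
  · rw [← hMx, Matrix.mulVec_mulVec]

omit [Finite S] in
/-- In `solve_mem`, if the right-hand side has values in the maximal ideal, so has the
solution. -/
theorem solve_mem_maximalIdeal {ι κ : Type*} [Fintype ι] [Fintype κ] [DecidableEq κ]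
    (M : Matrix ι κ (S → A)) (M₀ : Matrix ι κ A) (N : Matrix κ ι A) (hN : N * M₀ = 1)
    (hred : ∀ i j s, M i j s - M₀ i j ∈ IsLocalRing.maximalIdeal A)
    (w : ι → S → A) (hwm : ∀ i s, w i s ∈ IsLocalRing.maximalIdeal A)
    (x : κ → S → A) (hMx : M.mulVec x = w) (j : κ) (s : S) :
    x j s ∈ IsLocalRing.maximalIdeal A := by
  set P : Matrix κ κ (S → A) := N.map (algebraMap A (S → A)) * M with hP
  have hPx : P.mulVec x = (N.map (algebraMap A (S → A))).mulVec w := by
    rw [← hMx, Matrix.mulVec_mulVec]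
  -- `det P • x = adjugate P *ᵥ (N w)`
  have h1 : P.det • x = P.adjugate.mulVec ((N.map (algebraMap A (S → A))).mulVec w) := by
    rw [← hPx, Matrix.mulVec_mulVec, Matrix.adjugate_mul, Matrix.smul_mulVec, Matrix.one_mulVec]
  have h2 : P.det s * x j s ∈ IsLocalRing.maximalIdeal A := by
    have h3 := congrFun (congrFun h1 j) s
    rw [Pi.smul_apply, smul_eq_mul, Pi.mul_apply] at h3
    rw [h3]
    have h4 : (P.adjugate.mulVec ((N.map (algebraMap A (S → A))).mulVec w)) j s
        = ∑ l, P.adjugate j l s * ∑ i, N l i * w i s := by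
      simp only [Matrix.mulVec, dotProduct, Finset.sum_apply, Pi.mul_apply, Matrix.map_apply,
        Pi.algebraMap_apply, Algebra.algebraMap_self, RingHom.id_apply]
    rw [h4]
    exact Ideal.sum_mem _ fun l _ => Ideal.mul_mem_left _ _
      (Ideal.sum_mem _ fun i _ => Ideal.mul_mem_left _ _ (hwm i s))
  obtain ⟨d, hd⟩ := isUnit_det_leftInv_mul M M₀ N hN hred s
  have h5 : x j s = (↑d⁻¹ : A) * (P.det s * x j s) := by
    rw [← mul_assoc, hP, ← hd, Units.inv_mul, one_mul]
  rw [h5]
  exact Ideal.mul_mem_left _ _ h2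

/-- **The residual zero.**  Let `ζ : S → 𝔪` satisfy, at every point,
`ζ + γ₀ + ∑ⱼ γⱼ eⱼ = 0`, where `γ₀, γⱼ ∈ R` have values in the maximal ideal and each `eⱼ` has a
remainder expansion `eⱼ = ∑_{k<m} aⱼₖ ζᵏ + ζᵐ bⱼ` with `aⱼₖ ∈ R`; `c` is a conductor of `R`
dividing `ζ(s)ᵐ`.  Then `ζ ∈ R`. -/
theorem root_mem {κ : Type*} [Fintype κ] (R : Subalgebra A (S → A)) {c : A}
    (hc : ∀ f : S → A, c • f ∈ R) (ζ : S → A) (hζ : ∀ s, ζ s ∈ IsLocalRing.maximalIdeal A)
    {m : ℕ} (hpow : ∀ s, c ∣ ζ s ^ m)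
    (γ₀ : S → A) (hγ₀R : γ₀ ∈ R)
    (γ : κ → S → A) (hγR : ∀ j, γ j ∈ R) (hγ : ∀ j s, γ j s ∈ IsLocalRing.maximalIdeal A)
    (a : κ → ℕ → S → A) (ha : ∀ j k, a j k ∈ R) (b e : κ → S → A)
    (hexp : ∀ j s, e j s = ∑ k ∈ Finset.range m, a j k s * ζ s ^ k + ζ s ^ m * b j s)
    (hzero : ∀ s, ζ s + γ₀ s + ∑ j, γ j s * e j s = 0) : ζ ∈ R := by
  classical
  set F : R[X] := X + C (⟨γ₀, hγ₀R⟩ : R) + ∑ j, C (⟨γ j, hγR j⟩ : R) *
    ∑ k ∈ Finset.range m, C (⟨a j k, ha j k⟩ : R) * X ^ k with hF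
  have hFmap : ∀ s, F.map (evalAt R s) = X + C (γ₀ s) + ∑ j, C (γ j s) *
      ∑ k ∈ Finset.range m, C (a j k s) * X ^ k := by
    intro s
    simp only [hF, Polynomial.map_add, Polynomial.map_X, Polynomial.map_sum, Polynomial.map_mul,
      Polynomial.map_C, Polynomial.map_pow, evalAt_apply]
  refine newton_mem R hc ζ hζ hpow F (fun s => ?_) (fun s => ?_)
  · rw [hFmap s]
    simp only [eval_add, eval_X, eval_finsetSum, eval_mul, eval_C, eval_pow]
    have h2 : ∑ j, γ j s * e j s = ∑ j, γ j s * ∑ k ∈ Finset.range m, a j k s * ζ s ^ k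
        + ζ s ^ m * ∑ j, γ j s * b j s := by
      rw [Finset.mul_sum, ← Finset.sum_add_distrib]
      refine Finset.sum_congr rfl fun j _ => ?_
      rw [hexp j s]
      ring
    have h1 : ζ s + γ₀ s + ∑ j, γ j s * ∑ k ∈ Finset.range m, a j k s * ζ s ^ k
        = ζ s ^ m * (- ∑ j, γ j s * b j s) := by
      have h0 := hzero s
      rw [h2] at h0
      linear_combination h0
    rw [h1]
    exact Dvd.dvd.mul_right (hpow s) _
  · rw [← derivative_map, hFmap s]
    simp only [derivative_add, derivative_X, derivative_C, add_zero, derivative_sum,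
      derivative_C_mul, eval_add, eval_one, eval_finsetSum, eval_mul, eval_C]
    exact isUnit_one_add_of_mem
      (Ideal.sum_mem _ fun j _ => Ideal.mul_mem_right _ _ (hγ j s))

/-- **The algebraic key lemma on a finite set.**  Linear conditions `M γ = w` with entries in
`R`, reduced matrix constant with a left inverse, right-hand side pointwise in the maximal ideal;
a residual zero `ζ` of `T + γ₀ + ∑ γⱼ eⱼ(T)`.  Then the coefficients `γⱼ` and the residual zero
`ζ` are polynomial functions (elements of `R`), and the `γⱼ` have values in the maximal ideal. -/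
theorem residual_mem {ι κ : Type*} [Fintype ι] [Fintype κ] [DecidableEq κ]
    (R : Subalgebra A (S → A)) {c : A} (hc : ∀ f : S → A, c • f ∈ R)
    (M : Matrix ι κ (S → A)) (hM : ∀ i j, M i j ∈ R)
    (M₀ : Matrix ι κ A) (N : Matrix κ ι A) (hN : N * M₀ = 1)
    (hred : ∀ i j s, M i j s - M₀ i j ∈ IsLocalRing.maximalIdeal A)
    (w : ι → S → A) (hw : ∀ i, w i ∈ R) (hwm : ∀ i s, w i s ∈ IsLocalRing.maximalIdeal A)
    (γ : κ → S → A) (hMγ : M.mulVec γ = w)
    (ζ : S → A) (hζ : ∀ s, ζ s ∈ IsLocalRing.maximalIdeal A) {m : ℕ} (hpow : ∀ s, c ∣ ζ s ^ m)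
    (γ₀ : S → A) (hγ₀R : γ₀ ∈ R)
    (a : κ → ℕ → S → A) (ha : ∀ j k, a j k ∈ R) (b e : κ → S → A)
    (hexp : ∀ j s, e j s = ∑ k ∈ Finset.range m, a j k s * ζ s ^ k + ζ s ^ m * b j s)
    (hzero : ∀ s, ζ s + γ₀ s + ∑ j, γ j s * e j s = 0) :
    (∀ j, γ j ∈ R) ∧ (∀ j s, γ j s ∈ IsLocalRing.maximalIdeal A) ∧ ζ ∈ R := by
  have h1 : ∀ j, γ j ∈ R := solve_mem R M hM M₀ N hN hred w hw γ hMγ
  have h2 : ∀ j s, γ j s ∈ IsLocalRing.maximalIdeal A :=
    solve_mem_maximalIdeal M M₀ N hN hred w hwm γ hMγ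
  exact ⟨h1, h2, root_mem R hc ζ hζ hpow γ₀ hγ₀R γ h1 h2 a ha b e hexp hzero⟩

end Local

end Fermat.Agent.S19.KeyAlg
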