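import Mathlib

/-!
# Rank-one facts for a valuation ring of an algebraic extension of `ℚ` over a prime `ℓ`

Level-free input of the finite-set algebra of Program FG (S19), helper217 (the same four
statements were compiled independently by helper299): for a valuation subring `A` of a
field `K` algebraic over `ℚ` in which the prime `ℓ` is not a unit,

* `exists_dvd_natCast_pow`: every nonzero `c ∈ A` divides a power of `ℓ`;
* `exists_natCast_dvd_pow`: `ℓ` divides a power of every non-unit `ξ ∈ A`;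
* `exists_dvd_pow`: every nonzero `c ∈ A` divides a power of every non-unit `ξ` (this is the
  hypothesis `hpow` of `Lib/FinPolyFun.newton_mem` and of `S19/KeyAlg`, for a conductor `c`).
-/

set_option autoImplicit false

namespace Fermat.Agent.S19.RankOne

open Polynomial

variable {K : Type*} [Field K] [Algebra ℚ K] [Algebra.IsAlgebraic ℚ K] (A : ValuationSubring K)

omit [Algebra ℚ K] [Algebra.IsAlgebraic ℚ K] in
/-- An integer prime to `ℓ` is a unit of `A` when `ℓ` is not. -/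
theorem isUnit_intCast_of_not_dvd {ℓ : ℕ} (hℓ : ℓ.Prime) (hℓA : ¬ IsUnit (ℓ : A)) {u : ℤ}
    (hu : ¬ (ℓ : ℤ) ∣ u) : IsUnit (u : A) := by
  by_contra h
  have hcop : IsCoprime (ℓ : ℤ) u := (Nat.prime_iff_prime_int.1 hℓ).coprime_iff_not_dvd.2 hu
  obtain ⟨a, b, hab⟩ := hcop
  have h1 : ((a : A) * (ℓ : A) + (b : A) * (u : A)) = 1 := by
    have h2 := congrArg (Int.cast : ℤ → A) hab
    push_cast at h2
    exact h2
  have h3 : (1 : A) ∈ IsLocalRing.maximalIdeal A := by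
    rw [← h1]
    exact Ideal.add_mem _ (Ideal.mul_mem_left _ _ ((IsLocalRing.mem_maximalIdeal _).2 hℓA))
      (Ideal.mul_mem_left _ _ ((IsLocalRing.mem_maximalIdeal _).2 h))
  exact (Ideal.ne_top_iff_one _).1 (IsLocalRing.maximalIdeal.isMaximal A).ne_top h3

/-- Every nonzero element of `A` divides a nonzero integer. -/
theorem exists_dvd_intCast {c : A} (hc : c ≠ 0) : ∃ d : ℤ, d ≠ 0 ∧ c ∣ (d : A) := by
  have hcK : (c : K) ≠ 0 := fun h => hc (Subtype.ext h)
  have halg : IsAlgebraic ℤ ((c : K)⁻¹) :=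
    (IsFractionRing.isAlgebraic_iff ℤ ℚ K).2 (Algebra.IsAlgebraic.isAlgebraic _)
  obtain ⟨d, hd0, hdint⟩ := halg.exists_integral_multiple
  have hint : IsIntegral A (d • (c : K)⁻¹) := hdint.tower_top
  obtain ⟨y, hy⟩ := IsIntegrallyClosed.isIntegral_iff.1 hint
  refine ⟨d, hd0, y, ?_⟩
  apply Subtype.ext
  have hy' : (y : K) = d • (c : K)⁻¹ := hy
  push_cast
  rw [hy', zsmul_eq_mul]
  field_simp

/-- Every nonzero element of `A` divides a power of `ℓ`. -/
theorem exists_dvd_natCast_pow {ℓ : ℕ} (hℓ : ℓ.Prime) (hℓA : ¬ IsUnit (ℓ : A)) {c : A}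
    (hc : c ≠ 0) : ∃ N : ℕ, c ∣ (ℓ : A) ^ N := by
  obtain ⟨d, hd0, hcd⟩ := exists_dvd_intCast A hc
  have hfin : FiniteMultiplicity (ℓ : ℤ) d :=
    Int.finiteMultiplicity_iff.2 ⟨by simpa using hℓ.ne_one, hd0⟩
  obtain ⟨u, hdu, hu⟩ := hfin.exists_eq_pow_mul_and_not_dvd
  refine ⟨multiplicity (ℓ : ℤ) d, ?_⟩
  have h1 : (d : A) = (ℓ : A) ^ multiplicity (ℓ : ℤ) d * (u : A) := by
    have h2 := congrArg (Int.cast : ℤ → A) hdu
    push_cast at h2
    exact h2
  rw [h1] at hcd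
  exact (isUnit_intCast_of_not_dvd A hℓ hℓA hu).dvd_mul_right.1 hcd

/-- `ℓ` divides a power of every non-unit of `A`. -/
theorem exists_natCast_dvd_pow {ℓ : ℕ} (hℓ : ℓ.Prime) (hℓA : ¬ IsUnit (ℓ : A)) {ξ : A}
    (hξ : ¬ IsUnit ξ) : ∃ e : ℕ, (ℓ : A) ∣ ξ ^ e := by
  by_cases hξ0 : ξ = 0
  · exact ⟨1, by rw [hξ0, pow_one]; exact dvd_zero _⟩
  -- an integer polynomial killing `ξ`, primitive
  have halg : IsAlgebraic ℤ (ξ : K) :=
    (IsFractionRing.isAlgebraic_iff ℤ ℚ K).2 (Algebra.IsAlgebraic.isAlgebraic _)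
  obtain ⟨p, hp0, hp⟩ := halg
  have hprim : p.primPart.IsPrimitive := p.isPrimitive_primPart
  have hq : aeval ξ p.primPart = 0 := by
    have h1 : aeval (ξ : K) p.primPart = 0 := by
      have h2 := hp
      rw [p.eq_C_content_mul_primPart, map_mul, aeval_C] at h2
      rcases mul_eq_zero.1 h2 with h3 | h3
      · exfalso
        have : CharZero K := algebraRat.charZero K
        have h4 : (p.content : K) = 0 := by simpa using h3
        exact (content_eq_zero_iff.not.2 hp0) (Int.cast_eq_zero.1 h4)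
      · exact h3
    have h5 : ((aeval ξ p.primPart : A) : K) = aeval (ξ : K) p.primPart :=
      (aeval_algebraMap_apply K ξ p.primPart).symm
    exact Subtype.ext (h5.trans h1)
  set q := p.primPart with hqdef
  -- some coefficient is prime to `ℓ`
  have hex : ∃ i, ¬ (ℓ : ℤ) ∣ q.coeff i := by
    by_contra hall
    have hall' : ∀ i, (ℓ : ℤ) ∣ q.coeff i := fun i => not_not.1 (not_exists.1 hall i)
    have h1 : C (ℓ : ℤ) ∣ q := (C_dvd_iff_dvd_coeff _ _).2 hall'
    have h2 := hprim _ h1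
    exact (Nat.prime_iff_prime_int.1 hℓ).not_isUnit h2
  classical
  set i₀ := Nat.find hex with hi₀
  have hi₀spec : ¬ (ℓ : ℤ) ∣ q.coeff i₀ := Nat.find_spec hex
  have hi₀min : ∀ i, i < i₀ → (ℓ : ℤ) ∣ q.coeff i := fun i hi => by
    by_contra h
    exact Nat.find_min hex hi h
  refine ⟨i₀ + 1, ?_⟩
  rcases ValuationRing.dvd_total (ℓ : A) (ξ ^ (i₀ + 1)) with h | h
  · exact h
  exfalso
  -- every term of `q(ξ)` other than the `i₀`-th is divisible by `ξ ^ (i₀ + 1)`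
  have hle : i₀ ≤ q.natDegree := le_natDegree_of_ne_zero (fun h0 => hi₀spec (by rw [h0]; exact dvd_zero _))
  have hsum := hq
  rw [aeval_eq_sum_range] at hsum
  have hmem : i₀ ∈ Finset.range (q.natDegree + 1) := Finset.mem_range.2 (Nat.lt_succ_of_le hle)
  rw [← Finset.add_sum_erase _ _ hmem] at hsum
  have hrest : ξ ^ (i₀ + 1) ∣ ∑ i ∈ (Finset.range (q.natDegree + 1)).erase i₀, q.coeff i • ξ ^ i := by
    refine Finset.dvd_sum fun i hi => ?_
    rw [zsmul_eq_mul]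
    rcases lt_or_gt_of_ne (Finset.ne_of_mem_erase hi) with hlt | hgt
    · obtain ⟨t, ht⟩ := hi₀min i hlt
      have h1 : ((q.coeff i : ℤ) : A) = (ℓ : A) * (t : A) := by
        rw [ht]; push_cast; rfl
      rw [h1]
      exact Dvd.dvd.mul_right (Dvd.dvd.mul_right h _) _
    · exact Dvd.dvd.mul_left (pow_dvd_pow _ hgt) _
  have hterm : ξ ^ (i₀ + 1) ∣ q.coeff i₀ • ξ ^ i₀ := by
    have h1 : q.coeff i₀ • ξ ^ i₀
        = - ∑ i ∈ (Finset.range (q.natDegree + 1)).erase i₀, q.coeff i • ξ ^ i :=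
      eq_neg_of_add_eq_zero_left hsum
    rw [h1]
    exact (dvd_neg).2 hrest
  rw [zsmul_eq_mul, pow_succ, mul_comm ((q.coeff i₀ : ℤ) : A)] at hterm
  have h2 : ξ ∣ ((q.coeff i₀ : ℤ) : A) := (mul_dvd_mul_iff_left (pow_ne_zero _ hξ0)).1 hterm
  have h3 : IsUnit ((q.coeff i₀ : ℤ) : A) := isUnit_intCast_of_not_dvd A hℓ hℓA hi₀spec
  exact hξ (isUnit_of_dvd_unit h2 h3)

/-- **Rank one.**  Every nonzero element of `A` divides a power of every non-unit of `A`. -/
theorem exists_dvd_pow {ℓ : ℕ} (hℓ : ℓ.Prime) (hℓA : ¬ IsUnit (ℓ : A)) {c : A} (hc : c ≠ 0)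
    {ξ : A} (hξ : ¬ IsUnit ξ) : ∃ m : ℕ, c ∣ ξ ^ m := by
  obtain ⟨N, hN⟩ := exists_dvd_natCast_pow A hℓ hℓA hc
  obtain ⟨e, he⟩ := exists_natCast_dvd_pow A hℓ hℓA hξ
  exact ⟨e * N, by rw [pow_mul]; exact hN.trans (pow_dvd_pow_of_dvd he N)⟩

/-- Uniform version on a finite family: one exponent for finitely many non-units. -/
theorem exists_forall_dvd_pow {ℓ : ℕ} (hℓ : ℓ.Prime) (hℓA : ¬ IsUnit (ℓ : A)) {c : A} (hc : c ≠ 0)
    {S : Type*} [Finite S] (ξ : S → A) (hξ : ∀ s, ¬ IsUnit (ξ s)) :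
    ∃ m : ℕ, ∀ s, c ∣ ξ s ^ m := by
  classical
  cases nonempty_fintype S
  choose m hm using fun s => exists_dvd_pow A hℓ hℓA hc (hξ s)
  exact ⟨Finset.univ.sup m, fun s =>
    (hm s).trans (pow_dvd_pow _ (Finset.le_sup (f := m) (Finset.mem_univ s)))⟩

end Fermat.Agent.S19.RankOne
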